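import Fermat.Agent.Lower.Levels.Frame

/-!
# Matrices of intertwining maps in frames

For a linear map `g` commuting with a family of Hecke operators (`Commutes`), `frameMat` is its
matrix between two frames. It intertwines the matrices of the operators (`mat_mul_frameMat`),
is multiplicative (`frameMat_mul`) and is natural in the coefficients (`map_frameMat`).
-/

set_option autoImplicit false

noncomputable section

open CongruenceSubgroup
open scoped MatrixGroups Matrix

namespace FLTAgent.Lower.Lift.HopTW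

open FLTAgent.Lower.Levels

variable {L L' L'' : ℕ} {R : Type} [CommRing R] {k : Type} [Field k] {ι : Type}
  {ψ : (ZMod L)ˣ →* Rˣ} {ψ' : (ZMod L')ˣ →* Rˣ} {ψ'' : (ZMod L'')ˣ →* Rˣ}
  {pr : ι → Nat.Primes} {σ : R →+* k} {θ : ι → k} {d d' d'' : ℕ}

/-- `g` commutes with the family. -/
def Commutes (pr : ι → Nat.Primes) (g : H1 R R (chi ψ) →ₗ[R] H1 R R (chi ψ')) : Prop :=
  ∀ (i : ι) x, g (heckeOp (pr i).2 ψ R x) = heckeOp (pr i).2 ψ' R (g x)

theorem Commutes.famAct {g : H1 R R (chi ψ) →ₗ[R] H1 R R (chi ψ')} (hg : Commutes pr g)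
    (s : MvPolynomial ι R) (x : H1 R R (chi ψ)) :
    g (famAct ψ pr R s x) = Levels.famAct ψ' pr R s (g x) := by
  induction s using MvPolynomial.induction_on generalizing x with
  | C a => simp [← MvPolynomial.algebraMap_eq, Module.algebraMap_end_apply]
  | add a b ha hb => simp [map_add, ha, hb]
  | mul_X a i ha =>
    rw [map_mul, Module.End.mul_apply, ha, famAct_X, hg i, map_mul, Module.End.mul_apply,
      famAct_X]

theorem Commutes.smul {g : H1 R R (chi ψ) →ₗ[R] H1 R R (chi ψ')} (hg : Commutes pr g) (c : R) :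
    Commutes pr (c • g) := fun i x => by
  rw [LinearMap.smul_apply, LinearMap.smul_apply, hg i, map_smul]

theorem Commutes.mem_part {g : H1 R R (chi ψ) →ₗ[R] H1 R R (chi ψ')} (hg : Commutes pr g)
    {x : H1 R R (chi ψ)} (hx : x ∈ h1Part ψ pr σ θ R) : g x ∈ h1Part ψ' pr σ θ R :=
  map_mem_part g (fun s x => by rw [hg.famAct, MvPolynomial.map_id])
    (Ideal.ext fun s => by rw [Ideal.mem_comap, MvPolynomial.map_id]) hx

variable (F : Frame ψ pr σ θ d) (F' : Frame ψ' pr σ θ d') (F'' : Frame ψ'' pr σ θ d'')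

/-- The matrix of `g` in the frames. -/
def frameMat (g : H1 R R (chi ψ) →ₗ[R] H1 R R (chi ψ')) (hg : Commutes pr g) :
    Matrix (Fin d') (Fin d) R :=
  Matrix.of fun i j => F'.coord (g (F.vec j)) (hg.mem_part (F.mem j)) i

theorem combo_frameMat (g : H1 R R (chi ψ) →ₗ[R] H1 R R (chi ψ')) (hg : Commutes pr g)
    (c : Fin d → R) : F'.combo (frameMat F F' g hg *ᵥ c) = g (F.combo c) := by
  have h : F'.combo.comp (Matrix.mulVecLin (frameMat F F' g hg)) = g.comp F.combo := by
    refine LinearMap.pi_ext' fun j => LinearMap.ext_ring ?_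
    show F'.combo (frameMat F F' g hg *ᵥ Pi.single j 1) = g (F.combo (Pi.single j 1))
    rw [Matrix.mulVec_single_one, F.combo_single]
    exact F'.combo_coord _ (hg.mem_part (F.mem j))
  exact LinearMap.congr_fun h c

theorem frameMat_eq {g : H1 R R (chi ψ) →ₗ[R] H1 R R (chi ψ')} {hg : Commutes pr g}
    {M : Matrix (Fin d') (Fin d) R} (h : ∀ c, F'.combo (M *ᵥ c) = g (F.combo c)) :
    frameMat F F' g hg = M :=
  Matrix.ext_iff_mulVec.mpr fun c => F'.inj ((combo_frameMat F F' g hg c).trans (h c).symm)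

/-- The matrix of an intertwining map intertwines the matrices. -/
theorem mat_mul_frameMat (g : H1 R R (chi ψ) →ₗ[R] H1 R R (chi ψ')) (hg : Commutes pr g)
    (s : MvPolynomial ι R) :
    F'.mat s * frameMat F F' g hg = frameMat F F' g hg * F.mat s := by
  refine Matrix.ext_iff_mulVec.mpr fun c => F'.inj ?_
  show F'.combo ((F'.mat s * frameMat F F' g hg) *ᵥ c) =
    F'.combo ((frameMat F F' g hg * F.mat s) *ᵥ c)
  rw [← Matrix.mulVec_mulVec, ← Matrix.mulVec_mulVec, F'.combo_mat, combo_frameMat,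
    combo_frameMat, F.combo_mat, hg.famAct]

/-- Composition. -/
theorem frameMat_mul (g : H1 R R (chi ψ) →ₗ[R] H1 R R (chi ψ')) (hg : Commutes pr g)
    (g' : H1 R R (chi ψ') →ₗ[R] H1 R R (chi ψ'')) (hg' : Commutes pr g')
    {M : Matrix (Fin d'') (Fin d) R} (h : ∀ c, F''.combo (M *ᵥ c) = g' (g (F.combo c))) :
    frameMat F' F'' g' hg' * frameMat F F' g hg = M := by
  refine Matrix.ext_iff_mulVec.mpr fun c => F''.inj ?_
  show F''.combo _ = F''.combo _
  rw [h, ← Matrix.mulVec_mulVec, combo_frameMat, combo_frameMat]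

section Coef

variable {R' : Type} [CommRing R'] {χ : (ZMod L)ˣ →* R'ˣ} {χ' : (ZMod L')ˣ →* R'ˣ} {σ' : R' →+* k}
  {τ : R →+* R'} {hτ : ∀ u, τ (ψ u : R) = (χ u : R')} {hτ' : ∀ u, τ (ψ' u : R) = (χ' u : R')}
  {G : Frame χ pr σ' θ d} {G' : Frame χ' pr σ' θ d'}

theorem coefMap_combo (hF : F.IsLift G τ hτ) (c : Fin d → R) :
    coefMap (A := R) (B := R') τ.toSemilinearMap hτ (F.combo c) = G.combo (τ ∘ c) := by
  rw [Frame.combo, Frame.combo, Fintype.linearCombination_apply, Fintype.linearCombination_apply,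
    map_sum]
  exact Finset.sum_congr rfl fun i _ => by rw [LinearMap.map_smulₛₗ, hF i]; rfl

/-- Change of coefficients. -/
theorem map_frameMat (hF : F.IsLift G τ hτ) (hF' : F'.IsLift G' τ hτ')
    (g : H1 R R (chi ψ) →ₗ[R] H1 R R (chi ψ')) (hg : Commutes pr g)
    (g₀ : H1 R' R' (chi χ) →ₗ[R'] H1 R' R' (chi χ')) (hg₀ : Commutes pr g₀)
    (hcomm : ∀ x, coefMap (A := R) (B := R') τ.toSemilinearMap hτ' (g x) =
      g₀ (coefMap (A := R) (B := R') τ.toSemilinearMap hτ x)) :
    (frameMat F F' g hg).map τ = frameMat G G' g₀ hg₀ := by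
  refine (frameMat_eq G G' ?_).symm
  have hlin : G'.combo.comp (Matrix.mulVecLin ((frameMat F F' g hg).map τ)) = g₀.comp G.combo := by
    refine LinearMap.pi_ext' fun j => LinearMap.ext_ring ?_
    show G'.combo ((frameMat F F' g hg).map τ *ᵥ Pi.single j 1) = g₀ (G.combo (Pi.single j 1))
    rw [G.combo_single, ← hF j, ← hcomm, ← F.combo_single j, ← combo_frameMat F F' g hg,
      coefMap_combo F' hF', Matrix.mulVec_single_one, Matrix.mulVec_single_one]
    rfl
  exact LinearMap.congr_fun hlin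

end Coef

end FLTAgent.Lower.Lift.HopTW
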