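import Fermat.Agent.Lower.Lift.HopTW.Natural
import Fermat.Agent.Lower.Levels.Embed

/-!
# Raising `q` and the twist by `η` at `Q ∣ L`

The normalised maps `iotaT = (res, η(q) [q])` and `piT = (cor, η(q) cor W)` between the groups
with character `η⁻²` at levels `L` and `M = L q`: `piT_iotaT` gives
`π ι = [[q + 1, η(q) T_q], [η(q) T_q, q + 1]]`, and `tw_iotaT`, `tw_piT` say that the twist sends
them to the maps of trivial character at level `L Q`.
-/

set_option autoImplicit false

noncomputable section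

open CongruenceSubgroup
open scoped MatrixGroups

namespace FLTAgent.Lower.Lift.HopTW

open FLTAgent.Lower.Levels
open FLTAgent.HeckeH (M2 matOf matOf_mul mkGamma0 matOf_mkGamma0 matOf_dvd)

variable {L M q Q : ℕ} {R : Type} [CommRing R] (h : IsRaise L M q) (hQ : Q ∣ L)
  (η : (ZMod Q)ˣ →* Rˣ)

include h hQ in
theorem IsRaise.mul_aux : IsRaise (L * Q) (M * Q) q :=
  ⟨h.prime, fun hd => h.not_dvd (((Nat.Prime.dvd_mul h.prime).mp hd).elim id (·.trans hQ)),
    by rw [← h.eq]; ring⟩

theorem IsRaise.mem_gamma0 (h : IsRaise L M q) {g : SL(2, ℤ)} (hg : g ∈ Gamma0 (L * q)) :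
    g ∈ Gamma0 M :=
  h.eq ▸ hg

theorem upChar_twistChar : upChar h (twistChar hQ η) = twistChar (hQ.trans h.dvd) η := by
  refine MonoidHom.ext fun x => ?_
  simp only [upChar, twistChar, MonoidHom.comp_apply, MonoidHom.inv_apply, MonoidHom.pow_apply]
  rw [← MonoidHom.comp_apply (ZMod.unitsMap hQ), ZMod.unitsMap_comp]

theorem twistRel_up :
    TwistRel (hQ.trans h.dvd) (dvd_refl (M * Q)) η (upChar h (twistChar hQ η))
      (1 : (ZMod (M * Q))ˣ →* Rˣ) := by
  rw [upChar_twistChar]
  exact twistRel_twistChar _ η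

variable [NeZero Q]

/-- The twist at the lower level. -/
abbrev twL : Sys R (ZMod Q)ˣ (chi (twistChar hQ η)) (tchi (L * Q) R) :=
  twistSys (twistRel_twistChar hQ η)

/-- The twist at the upper level. -/
abbrev twM : Sys R (ZMod Q)ˣ (chi (upChar h (twistChar hQ η))) (tchi (M * Q) R) :=
  twistSys (twistRel_up h hQ η)

theorem twL_β (u : (ZMod Q)ˣ) : (twL hQ η).β u = transMat Q (u : ZMod Q) := rfl
theorem twM_β (u : (ZMod Q)ˣ) : (twM h hQ η).β u = transMat Q (u : ZMod Q) := rfl
theorem twL_w (u : (ZMod Q)ˣ) : (twL hQ η).w u = ((η u)⁻¹ : Rˣ).val := rfl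
theorem twM_w (u : (ZMod Q)ˣ) : (twM h hQ η).w u = ((η u)⁻¹ : Rˣ).val := rfl

/-- `η(q)`. -/
abbrev etaQ : Rˣ := η (primeUnit Q h.prime)

include h hQ in
theorem not_dvd_aux : ¬ q ∣ Q := fun hd => h.not_dvd (hd.trans hQ)

theorem twistChar_primeUnit :
    twistChar hQ η (primeUnit L h.prime) = ((etaQ h η) ^ 2)⁻¹ := by
  simp only [twistChar, MonoidHom.inv_apply, MonoidHom.pow_apply, MonoidHom.comp_apply]
  congr 3
  refine Units.ext ?_
  rw [ZMod.unitsMap_def, Units.coe_map]
  show ZMod.castHom hQ (ZMod Q) (primeUnit L h.prime : ZMod L) = _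
  rw [coe_primeUnit h.prime h.not_dvd, map_natCast, coe_primeUnit h.prime (not_dvd_aux h hQ)]

variable {A : Type} [AddCommGroup A] [Module R A]

theorem tw_res (x : H1 R A (chi (twistChar hQ η))) :
    (twM h hQ η).map A ((resT h (twistChar hQ η)).map A x) =
      (resU R (h.mul_aux hQ)).map A ((twL hQ η).map A x) := by
  rw [← Sys.map_comp, ← Sys.map_comp]
  refine (LinearMap.congr_fun (Sys.map_eq_of_orbit
    ((twL hQ η).comp (resU R (h.mul_aux hQ)))
    ((resT h (twistChar hQ η)).comp (twM h hQ η)) ?_ ?_ fun p => ⟨1, ((), p.1), ?_, ?_⟩) x).symm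
  · intro δ p p' e
    refine Prod.ext (transMat_inj δ p.1 p'.1 ?_) rfl
    simpa [twL_β, resU_β] using e
  · simp [Fintype.card_prod]
  · simp [twL_β, twM_β, resU_β]
  · simp [Sys.comp_w, twL_w, twM_w, res_w, resT]

theorem tw_deg (x : H1 R A (chi (twistChar hQ η))) :
    (twM h hQ η).map A (((etaQ h η : Rˣ) : R) • (degT h (twistChar hQ η)).map A x) =
      (degU R (h.mul_aux hQ)).map A ((twL hQ η).map A x) := by
  rw [map_smul, ← Sys.map_comp, ← Sys.map_comp, ← Sys.scale_map]
  refine (LinearMap.congr_fun (Sys.map_eq_of_orbit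
    ((twL hQ η).comp (degU R (h.mul_aux hQ)))
    (((degT h (twistChar hQ η)).comp (twM h hQ η)).scale ((etaQ h η : Rˣ) : R)) ?_ ?_ ?_) x).symm
  · intro δ p p' e
    refine Prod.ext (transMat_inj δ p.1 p'.1 ?_) rfl
    refine HeckeH.mul_right_cancel_of_det_ne (c := dMat q)
      (by rw [det_dMat]; exact_mod_cast h.prime.ne_zero) ?_
    simpa [twL_β, degU_β, Matrix.mul_assoc] using e
  · simp [Fintype.card_prod]
  · rintro ⟨u, _⟩
    have hqQ := not_dvd_aux h hQ
    set v : (ZMod Q)ˣ := (primeUnit Q h.prime)⁻¹ * u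
    obtain ⟨k, hk⟩ : (Q : ℤ) ∣ ((u : ZMod Q).val : ℤ) - (q : ℤ) * (v : ZMod Q).val := by
      rw [← ZMod.intCast_zmod_eq_zero_iff_dvd]
      push_cast
      rw [ZMod.natCast_zmod_val, ZMod.natCast_zmod_val, ← coe_primeUnit h.prime hqQ,
        ← Units.val_mul, mul_inv_cancel_left, sub_self]
    refine ⟨gammaT L k, ((), v), ?_, ?_⟩
    · simp only [Sys.comp_β, Sys.scale_β, twL_β, degU_β, degT_β, twM_β, transMat, dMat, gammaT,
        matOf_mkGamma0]
      ext s t
      fin_cases s <;> fin_cases t <;>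
        simp [Matrix.mul_apply, Fin.sum_univ_two, -ZMod.natCast_val] <;>
        first | ring1 | linear_combination hk
    · rw [chi_gammaT, Units.val_one, mul_one, Sys.comp_w, Sys.scale_w, Sys.comp_w, twL_w, twM_w,
        show (degU R (h.mul_aux hQ)).w () = 1 from rfl, mul_one,
        show (degT h (twistChar hQ η)).w () = (twistChar hQ η (primeUnit L h.prime) : R) from rfl,
        twistChar_primeUnit h hQ η, ← Units.val_mul, ← Units.val_mul]
      refine congrArg Units.val ?_
      rw [map_mul, map_inv, mul_inv_rev, inv_inv, sq, mul_inv_rev]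
      calc (η u)⁻¹ = etaQ h η * (etaQ h η)⁻¹ * ((etaQ h η * (etaQ h η)⁻¹) * (η u)⁻¹) := by
            simp
        _ = _ := by ac_rfl

theorem dUnit_aux (γ : Gamma0 (L * Q)) :
    ZMod.unitsMap hQ (dUnit (dvd_mul_right L Q) γ) = dUnit (dvd_mul_left Q L) γ :=
  dUnit_trans (dvd_mul_right L Q) hQ γ

theorem tw_cor (z : H1 R A (chi (upChar h (twistChar hQ η)))) :
    (twL hQ η).map A ((corT h (twistChar hQ η)).map A z) =
      (corU R (h.mul_aux hQ)).map A ((twM h hQ η).map A z) := by
  rw [← Sys.map_comp, ← Sys.map_comp]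
  refine (LinearMap.congr_fun (Sys.map_eq_of_orbit
    ((twM h hQ η).comp (corU R (h.mul_aux hQ)))
    ((corT h (twistChar hQ η)).comp (twL hQ η)) ?_ ?_ ?_) z).symm
  · rintro δ ⟨u, i⟩ ⟨u', i'⟩ e
    simp only [Sys.comp_β, twM_β, corU_β] at e
    set g := corRep (h.mul_aux hQ).prime (h.mul_aux hQ).not_dvd i *
      (corRep (h.mul_aux hQ).prime (h.mul_aux hQ).not_dvd i')⁻¹ with hg
    set δ' : Gamma0 L := Subgroup.inclusion (Period.gamma0_le_gamma0_of_dvd h.dvd) δ with hδ'
    have h1 : transMat Q (u : ZMod Q) * matOf g = matOf δ' * transMat Q (u' : ZMod Q) := by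
      rw [hg, matOf_mul, ← Matrix.mul_assoc, e, Matrix.mul_assoc (matOf δ),
        Matrix.mul_assoc (transMat Q (u' : ZMod Q)), ← matOf_mul, mul_inv_cancel, HeckeH.matOf_one,
        Matrix.mul_one]
      rfl
    have h2 : matOf δ 1 0 = matOf g 1 0 := by
      have := congrFun (congrFun h1 1) 0
      simp [transMat, Matrix.mul_apply, Fin.sum_univ_two] at this
      have hQ0 : (Q : ℤ) ≠ 0 := by exact_mod_cast NeZero.ne Q
      exact mul_right_cancel₀ hQ0 (by
        show matOf δ' 1 0 * (Q : ℤ) = _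
        linear_combination -this)
    have hi : i = i' := corRep_inj (h.mul_aux hQ).prime (h.mul_aux hQ).not_dvd
      ((mem_lower_iff (h.mul_aux hQ).prime (h.mul_aux hQ).not_dvd g).mpr (h2 ▸
        (Int.natCast_dvd_natCast.mpr ⟨L, by rw [← h.eq]; ring⟩).trans (matOf_dvd δ)))
    subst hi
    refine Prod.ext (transMat_inj δ u u' ?_) rfl
    exact HeckeH.mul_right_cancel_of_det_ne
      (by rw [HeckeH.det_matOf]; exact one_ne_zero) (e.trans (Matrix.mul_assoc _ _ _).symm)
  · simp [Fintype.card_prod, mul_comm]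
  · rintro ⟨u, i⟩
    set g := corRep (h.mul_aux hQ).prime (h.mul_aux hQ).not_dvd i
    set t := twistElt hQ (dvd_refl (L * Q)) g (u : ZMod Q) with ht
    obtain ⟨j, hj⟩ := exists_corRep h.prime h.not_dvd t
    have hmem : ((t * (corRep h.prime h.not_dvd j)⁻¹ : Gamma0 L) : SL(2, ℤ)) ∈ Gamma0 M :=
      h.mem_gamma0 hj
    set δ : Gamma0 M := ⟨_, hmem⟩ with hδdef
    set d := dUnit (dvd_mul_left Q L) g
    refine ⟨δ, (j, u * d ^ 2), ?_, ?_⟩
    · simp only [Sys.comp_β, twM_β, corU_β, corT_β, twL_β]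
      rw [← Matrix.mul_assoc,
        show matOf δ = matOf (t * (corRep h.prime h.not_dvd j)⁻¹) from rfl, ← matOf_mul,
        inv_mul_cancel_right, transMat_mul hQ (dvd_refl (L * Q)), ht]
      simp only [twistIdx, Units.val_mul, Units.val_pow_eq_pow_val, coe_dUnit, d]
      rfl
    · rw [Sys.comp_w, Sys.comp_w, twM_w, twL_w, show (corU R (h.mul_aux hQ)).w i = 1 from rfl,
        mul_one,
        show (corT h (twistChar hQ η)).w j =
          ((twistChar hQ η (dUnit dvd_rfl (corRep h.prime h.not_dvd j))⁻¹ : Rˣ) : R) from rfl,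
        ← Units.val_mul, ← Units.val_mul]
      refine congrArg Units.val ?_
      have e1 : twistChar hQ η (dUnit h.dvd δ) *
          twistChar hQ η (dUnit dvd_rfl (corRep h.prime h.not_dvd j)) = ((η d) ^ 2)⁻¹ := by
        rw [← map_mul, show dUnit h.dvd δ = dUnit dvd_rfl (t * (corRep h.prime h.not_dvd j)⁻¹) from
          rfl, ← map_mul (dUnit (N := L) dvd_rfl), inv_mul_cancel_right, ht, coe_dUnit_twistElt]
        simp only [twistChar, MonoidHom.inv_apply, MonoidHom.pow_apply, MonoidHom.comp_apply,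
          dUnit_aux hQ, d]
      rw [chi_upChar, map_inv (twistChar hQ η), map_mul, map_pow, mul_inv_rev, ← e1]
      calc (η u)⁻¹ * twistChar hQ η (dUnit h.dvd δ)
          = (twistChar hQ η (dUnit dvd_rfl (corRep h.prime h.not_dvd j)))⁻¹ *
            twistChar hQ η (dUnit dvd_rfl (corRep h.prime h.not_dvd j)) *
            ((η u)⁻¹ * twistChar hQ η (dUnit h.dvd δ)) := by rw [inv_mul_cancel, one_mul]
        _ = _ := by ac_rfl

theorem tw_w (z : H1 R A (chi (upChar h (twistChar hQ η)))) :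
    (twM h hQ η).map A (((etaQ h η : Rˣ) : R) • (wT h (twistChar hQ η)).map A z) =
      (wU R (h.mul_aux hQ)).map A ((twM h hQ η).map A z) := by
  rw [map_smul, ← Sys.map_comp, ← Sys.map_comp, ← Sys.scale_map]
  refine (LinearMap.congr_fun (Sys.map_eq_of_orbit
    ((twM h hQ η).comp (wU R (h.mul_aux hQ)))
    (((wT h (twistChar hQ η)).comp (twM h hQ η)).scale ((etaQ h η : Rˣ) : R)) ?_ ?_ ?_) z).symm
  · intro δ p p' e
    refine Prod.ext (transMat_inj δ p.1 p'.1 ?_) rfl
    refine HeckeH.mul_right_cancel_of_det_ne (c := wMatV (L * Q) q)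
      (by rw [det_wMatV h.prime (h.mul_aux hQ).not_dvd]; exact_mod_cast h.prime.ne_zero) ?_
    simpa [twM_β, wU_β, Matrix.mul_assoc] using e
  · simp [Fintype.card_prod]
  · rintro ⟨u, _⟩
    have hqQ := not_dvd_aux h hQ
    set v : (ZMod Q)ˣ := primeUnit Q h.prime * u
    obtain ⟨k, hk⟩ : (Q : ℤ) ∣ ((v : ZMod Q).val : ℤ) - (q : ℤ) * (u : ZMod Q).val := by
      rw [← ZMod.intCast_zmod_eq_zero_iff_dvd]
      push_cast
      rw [ZMod.natCast_zmod_val, ZMod.natCast_zmod_val, Units.val_mul, coe_primeUnit h.prime hqQ,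
        sub_self]
    obtain ⟨l, hl⟩ := hQ
    set a := Nat.gcdA q L
    set b := Nat.gcdB q L
    set a' := Nat.gcdA q (L * Q)
    set b' := Nat.gcdB q (L * Q)
    have hb : a * (q : ℤ) + b * (L : ℤ) = 1 := bezout h.prime h.not_dvd
    have hb' : a' * (q : ℤ) + b' * ((L : ℤ) * Q) = 1 := by
      exact_mod_cast bezout h.prime (h.mul_aux ⟨l, hl⟩).not_dvd
    have hlZ : (L : ℤ) = Q * l := by exact_mod_cast hl
    set x : ℤ := ((u : ZMod Q).val : ℤ) with hx
    set y : ℤ := ((v : ZMod Q).val : ℤ) with hy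
    have hyk : y = q * x + Q * k := by linear_combination hk
    set x0 : ℤ := a' + x * L
    set x1 : ℤ := -b' + x * q * b' * L - q * a' * k - x * l * q * y
    set x3 : ℤ := 1 - L * y
    set D : M2 := !![(q : ℤ) * x0 - L * x1, x0 * b + a * x1;
      (L : ℤ) * q * (Q - x3), (L : ℤ) * Q * b + q * a * x3] with hD
    have hDW : D * wMatV L q = !![(q : ℤ) * x0, x1; (L : ℤ) * q * Q, q * x3] := by
      rw [hD, wMatV]
      ext s t
      fin_cases s <;> fin_cases t <;> simp [Matrix.mul_apply, Fin.sum_univ_two]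
      · linear_combination ((q : ℤ) * x0) * hb
      · linear_combination x1 * hb
      · linear_combination ((L : ℤ) * q * Q) * hb
      · linear_combination ((q : ℤ) * x3) * hb
    have heq : transMat Q (u : ZMod Q) * wMatV (L * Q) q =
        D * (wMatV L q * transMat Q (v : ZMod Q)) := by
      rw [← Matrix.mul_assoc, hDW, transMat, transMat, wMatV, ← hx, ← hy]
      ext s t
      fin_cases s <;> fin_cases t <;> simp [Matrix.mul_apply, Fin.sum_univ_two, x0, x1, x3]
      · ring
      · linear_combination (-(x * q)) * hb' - ((q : ℤ) * a') * hyk - (x * q * y) * hlZ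
      · ring
      · ring
    have hdet : D.det = 1 := by
      have e := congrArg Matrix.det heq
      rw [Matrix.det_mul, Matrix.det_mul, Matrix.det_mul,
        det_wMatV h.prime h.not_dvd, det_wMatV h.prime (h.mul_aux ⟨l, hl⟩).not_dvd] at e
      simp only [transMat, Matrix.det_fin_two_of, mul_zero, sub_zero] at e
      have hne : (Q : ℤ) * Q * q ≠ 0 := by
        simp [NeZero.ne Q, h.prime.ne_zero]
      exact mul_left_cancel₀ hne (by linear_combination -e)
    have hM10 : (M : ℤ) ∣ D 1 0 := by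
      rw [← h.eq]; push_cast; exact dvd_mul_right _ _
    refine ⟨⟨⟨D, hdet⟩, Gamma0_mem.mpr ((ZMod.intCast_zmod_eq_zero_iff_dvd _ M).mpr hM10)⟩,
      ((), v), ?_, ?_⟩
    · simp only [Sys.comp_β, Sys.scale_β, twM_β, wU_β, wT_β]
      exact heq
    · rw [Sys.comp_w, Sys.scale_w, Sys.comp_w, twM_w, twM_w,
        show (wU R (h.mul_aux ⟨l, hl⟩)).w () = 1 from rfl, mul_one,
        show (wT h (twistChar ⟨l, hl⟩ η)).w () = (twistChar ⟨l, hl⟩ η 1 : R) from rfl, map_one,
        Units.val_one, one_mul, chi_upChar,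
        show dUnit h.dvd (⟨⟨D, hdet⟩, Gamma0_mem.mpr
          ((ZMod.intCast_zmod_eq_zero_iff_dvd _ M).mpr hM10)⟩ : Gamma0 M) = 1 from Units.ext ?_,
        map_one, Units.val_one, mul_one, map_mul, mul_inv_rev, ← Units.val_mul,
        mul_comm (η u)⁻¹, mul_inv_cancel_left]
      rw [coe_dUnit, Units.val_one]
      show ((D 1 1 : ℤ) : ZMod L) = 1
      have e2 : D 1 1 = 1 + (L : ℤ) * (b * Q - q * a * y - b) := by
        show (L : ℤ) * Q * b + q * a * (1 - L * y) = _
        linear_combination hb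
      rw [e2]; push_cast; simp

theorem tw_corW (z : H1 R A (chi (upChar h (twistChar hQ η)))) :
    (twL hQ η).map A (((etaQ h η : Rˣ) : R) • (corWT h (twistChar hQ η)).map A z) =
      (corWU R (h.mul_aux hQ)).map A ((twM h hQ η).map A z) := by
  rw [corWT, corWU, Sys.map_comp, Sys.map_comp, ← map_smul ((corT h (twistChar hQ η)).map A),
    tw_cor, tw_w]

/-! ### The normalised maps -/

/-- `(x, y) ↦ res x + η(q) [q] y`. -/
def iotaT (A : Type) [AddCommGroup A] [Module R A] : H1 R A (chi (twistChar hQ η)) × H1 R A (chi (twistChar hQ η)) →ₗ[R]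
    H1 R A (chi (upChar h (twistChar hQ η))) :=
  ((resT h (twistChar hQ η)).map A).coprod
    (((etaQ h η : Rˣ) : R) • (degT h (twistChar hQ η)).map A)

/-- `z ↦ (cor z, η(q) cor (W z))`. -/
def piT (A : Type) [AddCommGroup A] [Module R A] : H1 R A (chi (upChar h (twistChar hQ η))) →ₗ[R]
    H1 R A (chi (twistChar hQ η)) × H1 R A (chi (twistChar hQ η)) :=
  ((corT h (twistChar hQ η)).map A).prod
    (((etaQ h η : Rˣ) : R) • (corWT h (twistChar hQ η)).map A)

theorem iotaT_apply (x y : H1 R A (chi (twistChar hQ η))) :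
    iotaT h hQ η A (x, y) = (resT h (twistChar hQ η)).map A x +
      ((etaQ h η : Rˣ) : R) • (degT h (twistChar hQ η)).map A y := rfl

theorem piT_apply (z : H1 R A (chi (upChar h (twistChar hQ η)))) :
    piT h hQ η A z = ((corT h (twistChar hQ η)).map A z,
      ((etaQ h η : Rˣ) : R) • (corWT h (twistChar hQ η)).map A z) := rfl

/-- The composite `π ι` of the normalised maps. -/
theorem piT_iotaT (x y : H1 R A (chi (twistChar hQ η))) :
    piT h hQ η A (iotaT h hQ η A (x, y)) =
      (((q : R) + 1) • x + ((etaQ h η : Rˣ) : R) • heckeOp h.prime (twistChar hQ η) A y,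
        ((etaQ h η : Rˣ) : R) • heckeOp h.prime (twistChar hQ η) A x + ((q : R) + 1) • y) := by
  rw [piT_apply, iotaT_apply, map_add, map_add, map_smul, map_smul, cor_res, cor_deg, corW_res,
    corW_deg, smul_add, smul_smul, smul_smul, twistChar_primeUnit h hQ η]
  congr 3
  calc ((etaQ h η : Rˣ) : R) * ((etaQ h η : Rˣ) : R) *
        ((((etaQ h η) ^ 2)⁻¹ : Rˣ) * ((q : R) + 1))
      = ((etaQ h η ^ 2 * (etaQ h η ^ 2)⁻¹ : Rˣ) : R) * ((q : R) + 1) := by
        push_cast; ring
    _ = _ := by rw [mul_inv_cancel, Units.val_one, one_mul]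

theorem iotaT_hecke {ℓ : ℕ} (hℓ : ℓ.Prime) (hne : ℓ ≠ q)
    (x y : H1 R A (chi (twistChar hQ η))) :
    iotaT h hQ η A (heckeOp hℓ (twistChar hQ η) A x, heckeOp hℓ (twistChar hQ η) A y) =
      heckeOp hℓ (upChar h (twistChar hQ η)) A (iotaT h hQ η A (x, y)) := by
  rw [iotaT_apply, iotaT_apply, res_hecke h _ hℓ hne, deg_hecke h _ hℓ hne, map_add, map_smul]

theorem piT_hecke {ℓ : ℕ} (hℓ : ℓ.Prime) (hne : ℓ ≠ q)
    (z : H1 R A (chi (upChar h (twistChar hQ η)))) :
    piT h hQ η A (heckeOp hℓ (upChar h (twistChar hQ η)) A z) =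
      (heckeOp hℓ (twistChar hQ η) A (piT h hQ η A z).1,
        heckeOp hℓ (twistChar hQ η) A (piT h hQ η A z).2) := by
  rw [piT_apply, piT_apply, cor_hecke h _ hℓ hne, corW_hecke h _ hℓ hne, map_smul]

/-- The twist sends `ι` to the pair of degeneracy maps of trivial character. -/
theorem tw_iotaT (x y : H1 R A (chi (twistChar hQ η))) :
    (twM h hQ η).map A (iotaT h hQ η A (x, y)) =
      (resU R (h.mul_aux hQ)).map A ((twL hQ η).map A x) +
        (degU R (h.mul_aux hQ)).map A ((twL hQ η).map A y) := by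
  rw [iotaT_apply, map_add, tw_res, tw_deg]

/-- The twist sends `π` to the pair of corestrictions of trivial character. -/
theorem tw_piT (z : H1 R A (chi (upChar h (twistChar hQ η)))) :
    (twL hQ η).map A (piT h hQ η A z).1 = (corU R (h.mul_aux hQ)).map A ((twM h hQ η).map A z) ∧
      (twL hQ η).map A (piT h hQ η A z).2 =
        (corWU R (h.mul_aux hQ)).map A ((twM h hQ η).map A z) :=
  ⟨tw_cor h hQ η z, tw_corW h hQ η z⟩

section Coef

variable {R' : Type} [CommRing R'] {τ : R →+* R'} {η' : (ZMod Q)ˣ →* R'ˣ}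
  (hη : ∀ a, τ (η a : R) = (η' a : R'))
  {B : Type} [AddCommGroup B] [Module R' B] (f : A →ₛₗ[τ] B)

include hη in
omit [NeZero Q] in
theorem twistChar_compat (u : (ZMod L)ˣ) :
    τ (twistChar hQ η u : R) = (twistChar hQ η' u : R') := by
  simp only [twistChar, MonoidHom.inv_apply, MonoidHom.pow_apply, MonoidHom.comp_apply]
  simp only [← map_pow, ← map_inv]
  exact hη _

theorem coef_iotaT (x y : H1 R A (chi (twistChar hQ η))) :
    coefMap f (up_compat h (twistChar_compat hQ η hη)) (iotaT h hQ η A (x, y)) =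
      iotaT h hQ η' B (coefMap f (twistChar_compat hQ η hη) x,
        coefMap f (twistChar_compat hQ η hη) y) := by
  rw [iotaT_apply, iotaT_apply, map_add, LinearMap.map_smulₛₗ,
    coef_res h (twistChar_compat hQ η hη), coef_deg h (twistChar_compat hQ η hη)]
  congr 2
  exact hη _

theorem coef_piT (z : H1 R A (chi (upChar h (twistChar hQ η)))) :
    (coefMap f (twistChar_compat hQ η hη) (piT h hQ η A z).1,
      coefMap f (twistChar_compat hQ η hη) (piT h hQ η A z).2) =
      piT h hQ η' B (coefMap f (up_compat h (twistChar_compat hQ η hη)) z) := by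
  simp only [piT_apply, LinearMap.map_smulₛₗ, coef_cor h (twistChar_compat hQ η hη),
    coef_corW h (twistChar_compat hQ η hη)]
  rw [hη]

end Coef

end FLTAgent.Lower.Lift.HopTW
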