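import Fermat.Agent.Lower.Lift.HopTW.Maps
import Fermat.Agent.Lower.Levels.StabFrame

/-!
# Naturality of the maps raising `q`

The maps of `HopTW.Maps` commute with changes of coefficients (`coef_res`, `coef_deg`, `coef_cor`,
`coef_corW`). For the trivial character (`resU`, `degU`, `corU`, `wU`, `corWU`) they commute with
restriction in the level and agree with the maps at the base level (`resT_one`, `degT_one`,
`corT_one`, `corWT_one`).
-/

set_option autoImplicit false

noncomputable section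

open CongruenceSubgroup
open scoped MatrixGroups

namespace FLTAgent.Lower.Lift.HopTW

open FLTAgent.Lower.Levels
open FLTAgent.HeckeH (M2 matOf matOf_mul mkGamma0 matOf_mkGamma0 matOf_dvd)

variable {L M q : ℕ} {R : Type} [CommRing R] {R' : Type} [CommRing R'] {τ : R →+* R'}
  (h : IsRaise L M q) {ψ : (ZMod L)ˣ →* Rˣ} {ψ' : (ZMod L)ˣ →* R'ˣ}
  (hτ : ∀ u, τ (ψ u : R) = (ψ' u : R'))

section Coef

variable {A : Type} [AddCommGroup A] [Module R A] {B : Type} [AddCommGroup B] [Module R' B]
  (f : A →ₛₗ[τ] B)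

include hτ in
theorem up_compat (u : (ZMod M)ˣ) : τ (upChar h ψ u : R) = (upChar h ψ' u : R') := hτ _

theorem coef_res (x : H1 R A (chi ψ)) :
    coefMap f (up_compat h hτ) ((resT h ψ).map A x) = (resT h ψ').map B (coefMap f hτ x) :=
  H1.mapCoef_map f _ _ (resT h ψ) (resT h ψ') (inj_resT h ψ') (fun _ => rfl)
    (fun _ => (hτ 1).symm) x

theorem coef_deg (x : H1 R A (chi ψ)) :
    coefMap f (up_compat h hτ) ((degT h ψ).map A x) = (degT h ψ').map B (coefMap f hτ x) :=
  H1.mapCoef_map f _ _ (degT h ψ) (degT h ψ') (inj_degT h ψ') (fun _ => rfl)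
    (fun _ => (hτ (primeUnit L h.prime)).symm) x

theorem coef_cor (x : H1 R A (chi (upChar h ψ))) :
    coefMap f hτ ((corT h ψ).map A x) = (corT h ψ').map B (coefMap f (up_compat h hτ) x) :=
  H1.mapCoef_map f _ _ (corT h ψ) (corT h ψ') (inj_corT h ψ') (fun _ => rfl)
    (fun i => (hτ (dUnit dvd_rfl (corRep h.prime h.not_dvd i))⁻¹).symm) x

theorem coef_corW (x : H1 R A (chi (upChar h ψ))) :
    coefMap f hτ ((corWT h ψ).map A x) = (corWT h ψ').map B (coefMap f (up_compat h hτ) x) := by
  rw [corWT, corWT, Sys.map_comp, Sys.map_comp, coef_cor h hτ f]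
  congr 1
  exact H1.mapCoef_map f _ _ (wT h ψ) (wT h ψ') (fun _ _ _ _ => rfl) (fun _ => rfl)
    (fun _ => (hτ 1).symm) x

end Coef

/-! ### The trivial character -/

variable (R) in
/-- `resT` with trivial characters. -/
def resU : Sys R Unit (tchi L R) (tchi M R) := resT h 1

variable (R) in
/-- `degT` with trivial characters. -/
def degU : Sys R Unit (tchi L R) (tchi M R) := degT h 1

variable (R) in
/-- `corT` with trivial characters. -/
def corU : Sys R (Option (Fin q)) (tchi M R) (tchi L R) := corT h 1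

variable (R) in
/-- `wT` with trivial characters. -/
def wU : Sys R Unit (tchi M R) (tchi M R) := wT h 1

variable (R) in
/-- `corWT` with trivial characters. -/
def corWU : Sys R (Unit × Option (Fin q)) (tchi M R) (tchi L R) := (wU R h).comp (corU R h)

theorem resU_map {A : Type} [AddCommGroup A] [Module R A] :
    (resU R h).map A = (resT h (1 : (ZMod L)ˣ →* Rˣ)).map A := rfl
theorem degU_map {A : Type} [AddCommGroup A] [Module R A] :
    (degU R h).map A = (degT h (1 : (ZMod L)ˣ →* Rˣ)).map A := rfl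
theorem corU_map {A : Type} [AddCommGroup A] [Module R A] :
    (corU R h).map A = (corT h (1 : (ZMod L)ˣ →* Rˣ)).map A := rfl
theorem corWU_map {A : Type} [AddCommGroup A] [Module R A] :
    (corWU R h).map A = (corWT h (1 : (ZMod L)ˣ →* Rˣ)).map A := rfl

theorem resU_β (i : Unit) : (resU R h).β i = 1 := rfl
theorem degU_β (i : Unit) : (degU R h).β i = dMat q := rfl
theorem corU_β (i : Option (Fin q)) :
    (corU R h).β i = matOf (corRep h.prime h.not_dvd i) := rfl
theorem wU_β (i : Unit) : (wU R h).β i = wMatV L q := rfl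

theorem res_w (i : Unit) : (resU R h).w i = 1 := rfl
theorem deg_w (i : Unit) : (degU R h).w i = 1 := rfl
theorem cor_w (i : Option (Fin q)) : (corU R h).w i = 1 := rfl
theorem w_w_one (i : Unit) : (wU R h).w i = 1 := rfl
theorem resSys_w {N L' : ℕ} (hd : N ∣ L') (i : Unit) : (resSys R hd).w i = 1 := rfl
theorem resSys_β {N L' : ℕ} (hd : N ∣ L') (i : Unit) : (resSys R hd).β i = 1 := rfl

section Level

variable {N M₀ : ℕ} (h₀ : IsRaise N M₀ q) (hd : N ∣ L) (hd' : M₀ ∣ M)

theorem res_res (x : H1 R R (tchi N R)) :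
    (resU R h).map R ((resSys R hd).map R x) =
      (resSys R hd').map R ((resU R h₀).map R x) := by
  rw [← Sys.map_comp, ← Sys.map_comp]
  refine LinearMap.congr_fun (Sys.map_eq_of_orbit ((resSys R hd).comp (resU R h))
    ((resU R h₀).comp (resSys R hd')) (fun _ _ _ _ => Subsingleton.elim _ _) rfl fun i => ⟨1, ((), ()), ?_, ?_⟩) x
  · simp [resSys_β, resU_β]
  · simp [Sys.comp_w, res_w, resSys_w]

theorem deg_res (x : H1 R R (tchi N R)) :
    (degU R h).map R ((resSys R hd).map R x) =
      (resSys R hd').map R ((degU R h₀).map R x) := by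
  rw [← Sys.map_comp, ← Sys.map_comp]
  refine LinearMap.congr_fun (Sys.map_eq_of_orbit ((resSys R hd).comp (degU R h))
    ((degU R h₀).comp (resSys R hd')) (fun _ _ _ _ => Subsingleton.elim _ _) rfl fun i => ⟨1, ((), ()), ?_, ?_⟩) x
  · simp [resSys_β, degU_β]
  · simp [Sys.comp_w, deg_w, resSys_w]

include h₀ hd in
theorem cor_res_level (x : H1 R R (tchi M₀ R)) :
    (corU R h).map R ((resSys R hd').map R x) =
      (resSys R hd).map R ((corU R h₀).map R x) := by
  rw [← Sys.map_comp, ← Sys.map_comp]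
  obtain ⟨hq, hqL, rfl⟩ := h
  obtain ⟨-, hqN, rfl⟩ := h₀
  refine LinearMap.congr_fun (Sys.map_eq_of_orbit
    ((resSys R hd').comp (corU R ⟨hq, hqL, rfl⟩))
    ((corU R ⟨hq, hqN, rfl⟩).comp (resSys R hd)) ?_ ?_ ?_) x
  · rintro δ ⟨_, i⟩ ⟨_, i'⟩ e
    simp only [Sys.comp_β, resSys_β, corU_β, Matrix.one_mul] at e
    refine Prod.ext rfl (corRep_inj hq hqL ((mem_lower_iff hq hqL _).mpr ?_))
    have h1 : matOf (corRep hq hqL i * (corRep hq hqL i')⁻¹) = matOf δ := by
      rw [matOf_mul, e, Matrix.mul_assoc, ← matOf_mul, mul_inv_cancel, HeckeH.matOf_one,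
        Matrix.mul_one]
    rw [h1]
    exact (Int.natCast_dvd_natCast.mpr (dvd_mul_left q N)).trans (matOf_dvd δ)
  · simp [Fintype.card_prod]
  · rintro ⟨_, i⟩
    set g : Gamma0 N := Subgroup.inclusion (Period.gamma0_le_gamma0_of_dvd hd) (corRep hq hqL i)
    obtain ⟨j, hj⟩ := exists_corRep hq hqN g
    refine ⟨toLower _ hj, (j, ()), ?_, ?_⟩
    · simp only [Sys.comp_β, resSys_β, corU_β, Matrix.one_mul, Matrix.mul_one]
      show matOf g = matOf (g * (corRep hq hqN j)⁻¹) * matOf (corRep hq hqN j)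
      rw [← matOf_mul, inv_mul_cancel_right]
    · simp [Sys.comp_w, resSys_w, cor_w]

include h₀ hd in
theorem w_res_level (x : H1 R R (tchi M₀ R)) :
    (wU R h).map R ((resSys R hd').map R x) =
      (resSys R hd').map R ((wU R h₀).map R x) := by
  rw [← Sys.map_comp, ← Sys.map_comp]
  obtain ⟨e, he⟩ := hd
  set a := Nat.gcdA q L
  set b := Nat.gcdB q L
  set a' := Nat.gcdA q N
  set b' := Nat.gcdB q N
  have hb : a * (q : ℤ) + b * (L : ℤ) = 1 := bezout h.prime h.not_dvd
  have hb' : a' * (q : ℤ) + b' * (N : ℤ) = 1 := bezout h₀.prime h₀.not_dvd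
  have he' : (L : ℤ) = N * e := by exact_mod_cast he
  refine LinearMap.congr_fun (Sys.map_eq_of_orbit ((resSys R hd').comp (wU R h))
    ((wU R h₀).comp (resSys R hd')) (fun _ _ _ _ => Subsingleton.elim _ _) rfl fun i =>
      ⟨mkGamma0 ((q : ℤ) * a + b * N) (a * b' - b * a') ((L : ℤ) * q - N * q) (L * b' + q * a')
        ?_ ?_, ((), ()), ?_, ?_⟩) x
  · linear_combination (a' * (q : ℤ) + b' * N) * hb + hb'
  · refine ⟨(e : ℤ) - 1, ?_⟩
    rw [← h₀.eq, he']; push_cast; ring
  · simp only [Sys.comp_β, resSys_β, wU_β, Matrix.one_mul, Matrix.mul_one, matOf_mkGamma0, wMatV]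
    ext s t
    fin_cases s <;> fin_cases t <;> simp [Matrix.mul_apply, Fin.sum_univ_two]
    · linear_combination (-(q : ℤ) * a) * hb'
    · linear_combination b * hb'
    · linear_combination (-(L : ℤ) * q) * hb'
    · linear_combination (-(q : ℤ)) * hb'
  · simp [Sys.comp_w, resSys_w, w_w_one]

include h₀ hd in
theorem corW_res_level (x : H1 R R (tchi M₀ R)) :
    (corWU R h).map R ((resSys R hd').map R x) =
      (resSys R hd).map R ((corWU R h₀).map R x) := by
  rw [corWU, corWU, Sys.map_comp, Sys.map_comp, w_res_level h h₀ hd hd',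
    cor_res_level h h₀ hd hd']

end Level

section Base

variable {N : ℕ} (hb : IsRaise N (N * q) q) {A : Type} [AddCommGroup A] [Module R A]

theorem resT_one : (resU R hb).map A = (degOne N R q).map A :=
  Sys.map_eq_of_orbit _ _ (inj_resT (R := R) hb 1) rfl fun _ => ⟨1, (), by simp [degOne, resU_β],
    by simp [res_w, degOne]⟩

theorem degT_one : (degU R hb).map A = (degV N R hb.prime).map A :=
  Sys.map_eq_of_orbit _ _ (inj_degT (R := R) hb 1) rfl fun _ => ⟨1, (), by simp [degV, dMat, degU_β],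
    by simp [deg_w, degV]⟩

theorem corT_one : (corU R hb).map A = (corSys R hb.prime hb.not_dvd).map A :=
  Sys.map_eq_of_orbit _ _ (inj_corT (R := R) hb 1) rfl fun i => ⟨1, i, by simp [corSys, corU_β],
    by simp [cor_w, corSys]⟩

theorem corWT_one (x : H1 R A (tchi (N * q) R)) :
    (corWU R hb).map A x =
      (corSys R hb.prime hb.not_dvd).map A ((wSys R hb.prime hb.not_dvd).map A x) := by
  rw [corWU, Sys.map_comp, corT_one hb]
  rfl

end Base

end FLTAgent.Lower.Lift.HopTW
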