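import Fermat.Agent.Lower.Lift.HopTW.Data

/-!
# The lattices at both levels

The matrices of raising `q` intertwine the actions of polynomials in the twisted operators
`η(ℓ) T_ℓ` on the lattices at levels `L` and `M` (`levelIota_comm_act`, `levelPi_comm_act`),
and `η(q) T_q` is the operator of the lattice at `q` (`levelT_eq_act`).
-/

set_option autoImplicit false

noncomputable section

open CongruenceSubgroup
open scoped MatrixGroups Matrix

namespace FLTAgent.Lower.Lift.HopTW

open FLTAgent.Lower.Levels

variable {O : Type} [CommRing O] {R : Type} [CommRing R] [Algebra O R] {ι ι' I I' : Type} {Q : ℕ}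

/-- The polynomial of `η(ℓ) T_ℓ` for compatible families. -/
theorem rename_levelPoly {pr : ι → Nat.Primes} {pr' : ι' → Nat.Primes} (η : (ZMod Q)ˣ →* Rˣ)
    (e : ι → ι') (he : ∀ i, pr' (e i) = pr i) (j : I → ι) (j' : I' → ι') (a : I → I')
    (hj : ∀ l, e (j l) = j' (a l)) (s : MvPolynomial I O) :
    MvPolynomial.rename e (levelPoly (O := O) pr η j s) =
      levelPoly (O := O) pr' η j' (MvPolynomial.rename a s) := by
  induction s using MvPolynomial.induction_on with
  | C c =>
    simp [levelPoly, IsScalarTower.algebraMap_apply O R (MvPolynomial ι R),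
      IsScalarTower.algebraMap_apply O R (MvPolynomial ι' R)]
  | add s t hs ht => simp only [map_add, hs, ht]
  | mul_X s i hs =>
    rw [map_mul, map_mul, hs, map_mul, MvPolynomial.rename_X, map_mul]
    congr 1
    simp only [levelPoly, MvPolynomial.aeval_X, map_mul, MvPolynomial.rename_C,
      MvPolynomial.rename_X]
    have hu : ∀ (l l' : Nat.Primes), l = l' → primeUnit Q l.2 = primeUnit Q l'.2 := by
      rintro l l' rfl
      rfl
    rw [hu (pr (j i)) (pr' (j' (a i))) (by rw [← hj i, he]), hj i]

variable {L M q : ℕ} {k : Type} [Field k] {pr : ι → Nat.Primes} [NeZero Q]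
  (h : IsRaise L M q) (hQ : Q ∣ L) (η : (ZMod Q)ˣ →* Rˣ) (hne : ∀ i, (pr i : ℕ) ≠ q)
  {σ : R →+* k} {θ : ι → k} {d₀ d₁ : ℕ} (F : Frame (twistChar hQ η) pr σ θ d₀)
  (F' : Frame (twistChar (hQ.trans h.dvd) η) pr σ θ d₁)
  {pr' : ι' → Nat.Primes} {θ' : ι' → k} (G : Frame (twistChar hQ η) pr' σ θ' d₀)
  (hv : G.vec = F.vec) (e : ι → ι') (he : ∀ i, pr' (e i) = pr i)
  (j : I → ι) (j' : I' → ι') (a : I → I') (hj : ∀ l, e (j l) = j' (a l))

include hv he hj in
/-- The operators on the smaller family, through those on the larger one. -/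
theorem levelAct_eq_of_vec_eq (s : MvPolynomial I O) :
    levelAct (O := O) G η j' (MvPolynomial.rename a s) = levelAct (O := O) F η j s := by
  show G.mat (levelPoly (O := O) pr' η j' (MvPolynomial.rename a s)) =
    F.mat (levelPoly (O := O) pr η j s)
  rw [← rename_levelPoly η e he j j' a hj s, mat_eq_of_vec_eq e he F G hv]

include hv he hj in
/-- `ι` intertwines the lattices. -/
theorem levelIota_comm_act (s : MvPolynomial I O) :
    levelAct (O := O) F' η j s * levelIota h hQ η hne F (upFrame h hQ η F') =
      levelIota h hQ η hne F (upFrame h hQ η F') * Matrix.blockDiagonal fun _ : Fin 2 =>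
        levelAct (O := O) G η j' (MvPolynomial.rename a s) := by
  rw [levelAct_eq_of_vec_eq hQ η F G hv e he j j' a hj s]
  rw [show levelAct (O := O) F' η j s = F'.mat (levelPoly (O := O) pr η j s) from rfl,
    ← upFrame_mat h hQ η F', levelIota_comm]
  rfl

include hv he hj in
/-- `π` intertwines the lattices. -/
theorem levelPi_comm_act (s : MvPolynomial I O) :
    (Matrix.blockDiagonal fun _ : Fin 2 =>
      levelAct (O := O) G η j' (MvPolynomial.rename a s)) *
        levelPi h hQ η hne F (upFrame h hQ η F') =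
      levelPi h hQ η hne F (upFrame h hQ η F') * levelAct (O := O) F' η j s := by
  rw [levelAct_eq_of_vec_eq hQ η F G hv e he j j' a hj s]
  rw [show levelAct (O := O) F' η j s = F'.mat (levelPoly (O := O) pr η j s) from rfl,
    ← upFrame_mat h hQ η F', ← levelPi_comm]
  rfl

include hv in
/-- `η(q) T_q` is the operator of the lattice at `q`. -/
theorem levelT_eq_act (l : I') (hl : pr' (j' l) = ⟨q, h.prime⟩) :
    levelT h hQ η F = levelAct (O := O) G η j' (MvPolynomial.X l) := by
  show levelT h hQ η F = G.mat (levelPoly (O := O) pr' η j' (MvPolynomial.X l))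
  rw [levelT_eq h hQ η F G hv (j' l) hl, levelPoly, MvPolynomial.aeval_X, map_mul,
    MvPolynomial.algHom_C, ← Algebra.smul_def]
  have hu : ∀ (a b : Nat.Primes), a = b → primeUnit Q a.2 = primeUnit Q b.2 := by
    rintro a b rfl
    rfl
  rw [hu _ _ hl]

end FLTAgent.Lower.Lift.HopTW
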