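import Fermat.Agent.Lower.Lift.HopTW.Lift
import Fermat.Agent.Lower.Levels.GaloisNew

/-!
# New classes at an auxiliary level are special at `q`

`isSpecial_of_cor`: a Galois representation acting faithfully on period classes killed by both
corestrictions is special at `q`, via the criterion `isSpecial_of_betaMap`.
`cor_twist_eq_zero`: after the twist, the vectors killed by `π` give such classes.
-/

set_option autoImplicit false

noncomputable section

open CongruenceSubgroup CuspForm
open scoped MatrixGroups Matrix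

namespace FLTAgent.Lower.Lift.HopTW

open FLTAgent.Lower.Levels
open IsLocalRing (maximalIdeal)

variable {p : ℕ} [Fact p.Prime] {q : ℕ} {O : Type} [CommRing O] [IsDomain O] [CharZero O]
  (f : ℤ_[p] →+* O) {R : Type} [CommRing R] [Algebra O R] [Module.Finite O R] [Module.Free O R]
  {T : Type} [CommRing T] [IsLocalRing T] [IsNoetherianRing T]
  [IsAdicComplete (maximalIdeal T) T] [Algebra O T] {S : Finset ℕ}

/-- Modules whose classes are killed by both corestrictions are special. -/
theorem isSpecial_of_cor {L' M' : ℕ} [NeZero L'] [NeZero M'] (h : IsRaise L' M' q) (hqp : q ≠ p)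
    {π : ↥(heckeAlgebra M' 2 (↑S : Set ℕ)) →+* T} {ρ : GaloisRepAdic T}
    (hρ : Local.IsAttached π ρ p) {d : ℕ} (act : T →ₐ[O] Matrix (Fin d) (Fin d) R)
    (hact : Function.Injective act) (emb : (Fin d → R) →ₗ[R] Period.H M' R R)
    (hemb : Function.Injective emb)
    (hrel : ∀ σ x, galH M' ((algebraMap O R).comp f) σ
        (galH M' ((algebraMap O R).comp f) σ (emb x)) -
      galH M' ((algebraMap O R).comp f) σ (emb (act (ρ.trace σ) *ᵥ x)) +
        emb (act (LinearMap.det (ρ.ρ σ)) *ᵥ x) = 0)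
    (hcor : ∀ x, ∃ z : H1 R R (tchi M' R),
      (emb x : Additive (Gamma0 M') →+ R) = h1Triv M' R R z ∧
        (corU R h).map R z = 0 ∧ (corWU R h).map R z = 0) :
    IsSpecial q ρ := by
  obtain rfl := h.eq
  have := Fact.mk h.prime
  have : NeZero q := ⟨h.prime.ne_zero⟩
  refine isSpecial_of_betaMap h.not_dvd hqp f hρ act hact emb hemb hrel fun x => ?_
  obtain ⟨z, hz, h0, h1⟩ := hcor x
  rw [corT_one] at h0
  rw [corWT_one] at h1
  rw [Ihara.betaMap_apply, Prod.mk_eq_zero]
  constructor
  · refine Subtype.ext ?_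
    rw [Degen.coe_corH, hz, ← HopQ.h1Triv_cor h.not_dvd, h0, map_zero]
    rfl
  · refine Subtype.ext ?_
    have e : (Ihara.thetaH R R h.not_dvd (emb x) : Additive (Gamma0 (L' * q)) →+ R) =
        h1Triv (L' * q) R R ((wSys R (Fact.out : q.Prime) h.not_dvd).map R z) := by
      rw [HopQ.h1Triv_w h.not_dvd, ← hz]
      rfl
    rw [Degen.coe_corH, e, ← HopQ.h1Triv_cor h.not_dvd, h1, map_zero]
    rfl

omit [Algebra O R] [Module.Finite O R] [Module.Free O R] in
/-- The classes of vectors killed by `π`, after the twist, are killed by both corestrictions. -/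
theorem cor_twist_eq_zero {L M Q : ℕ} [NeZero Q] (h : IsRaise L M q) (hQ : Q ∣ L)
    (η : (ZMod Q)ˣ →* Rˣ) {k : Type} [Field k] {ι : Type} {pr : ι → Nat.Primes}
    (hne : ∀ i, (pr i : ℕ) ≠ q) {σ : R →+* k} {θ : ι → k} {d₀ d₁ : ℕ}
    (G : Frame (twistChar hQ η) pr σ θ d₀)
    (G' : Frame (upChar h (twistChar hQ η)) pr σ θ d₁) {x : Fin d₁ → R}
    (hx : levelPi h hQ η hne G G' *ᵥ x = 0) :
    (corU R (h.mul_aux hQ)).map R ((twM h hQ η).map R (G'.combo x)) = 0 ∧
      (corWU R (h.mul_aux hQ)).map R ((twM h hQ η).map R (G'.combo x)) = 0 := by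
  constructor
  · rw [← tw_cor h hQ η, show (corT h (twistChar hQ η)).map R (G'.combo x) = 0 from
      downMap_eq_zero h hQ η hne G G' hx 0, map_zero]
  · rw [← tw_corW h hQ η, show ((etaQ h η : Rˣ) : R) • (corWT h (twistChar hQ η)).map R
      (G'.combo x) = 0 from downMap_eq_zero h hQ η hne G G' hx 1, map_zero]

end FLTAgent.Lower.Lift.HopTW
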