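import Fermat.Agent.Lower.Levels.Image

/-!
# Lifting a split exact sequence of free modules

Along a surjective local homomorphism of coefficient rings, right and left inverses lift
(`exists_rightInv_lift`, `exists_leftInv_lift`), hence so does the kernel of a split surjection
with its splitting (`exists_ker_lift`). `subAct` is the action induced on that kernel;
`unitAway_subAct` and `isUnit_of_isUnit_matrix` transfer invertibility to it.
-/

set_option autoImplicit false

noncomputable section

open scoped Matrix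

namespace FLTAgent.Lower.Lift.HopTW

variable {R O : Type} [CommRing R] [CommRing O] (a : R →+* O)
  {A B C : Type} [Fintype A] [DecidableEq A] [Fintype B] [DecidableEq B] [Fintype C] [DecidableEq C]

omit [DecidableEq A] [DecidableEq B] [DecidableEq C] [Fintype B] [Fintype C] in
theorem matMap_mul (X : Matrix B A R) (Y : Matrix A C R) :
    (X * Y).map a = X.map a * Y.map a := by
  ext b c
  simp [Matrix.mul_apply, map_sum, map_mul]

theorem isUnit_of_matMap_eq_one [IsLocalHom a] {M : Matrix A A R} (h : M.map a = 1) :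
    IsUnit M := by
  refine (Matrix.isUnit_iff_isUnit_det M).mpr (IsUnit.of_map a M.det ?_)
  rw [RingHom.map_det, RingHom.mapMatrix_apply, h, Matrix.det_one]
  exact isUnit_one

variable {a} (ha : Function.Surjective a) [IsLocalHom a]

include ha in
theorem exists_rightInv_lift (π : Matrix B A R) {s₀ : Matrix A B O} (h : π.map a * s₀ = 1) :
    ∃ s : Matrix A B R, π * s = 1 ∧ s.map a = s₀ := by
  choose l hl using ha
  set s := s₀.map l
  have hs : s.map a = s₀ := by ext i j; exact hl _
  obtain ⟨u, hu⟩ := isUnit_of_matMap_eq_one a (M := π * s) (by rw [matMap_mul, hs, h])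
  have hu' : ((u⁻¹ : (Matrix B B R)ˣ) : Matrix B B R).map a = 1 := by
    have e : ((u⁻¹ : (Matrix B B R)ˣ) : Matrix B B R) * (u : Matrix B B R) = 1 := u.inv_mul
    have e' := congrArg (fun X : Matrix B B R => X.map a) e
    simp only [matMap_mul, hu, hs, h, mul_one, Matrix.map_one a (map_zero a) (map_one a)] at e'
    exact e'
  refine ⟨s * ((u⁻¹ : (Matrix B B R)ˣ) : Matrix B B R), ?_, ?_⟩
  · rw [← Matrix.mul_assoc, ← hu]
    exact u.mul_inv
  · rw [matMap_mul, hs, hu', Matrix.mul_one]

include ha in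
theorem exists_leftInv_lift (ι : Matrix A B R) {s₀ : Matrix B A O} (h : s₀ * ι.map a = 1) :
    ∃ s : Matrix B A R, s * ι = 1 ∧ s.map a = s₀ := by
  obtain ⟨s, hs, hs'⟩ := exists_rightInv_lift ha ιᵀ (s₀ := s₀ᵀ) (by
    rw [Matrix.transpose_map, ← Matrix.transpose_mul, h, Matrix.transpose_one])
  refine ⟨sᵀ, ?_, ?_⟩
  · have := congrArg Matrix.transpose hs
    rwa [Matrix.transpose_mul, Matrix.transpose_transpose, Matrix.transpose_one] at this
  · rw [Matrix.transpose_map, hs', Matrix.transpose_transpose]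

include ha in
/-- The kernel of a split surjection lifts with its splitting. -/
theorem exists_ker_lift (π : Matrix B A R) (j₀ : Matrix A C O)
    (hs : ∃ s₀ : Matrix A B O, π.map a * s₀ = 1) (hπj : π.map a * j₀ = 0)
    (ht : ∃ t₀ : Matrix C A O, t₀ * j₀ = 1)
    (hex : ∀ x : A → O, π.map a *ᵥ x = 0 → ∃ y, j₀ *ᵥ y = x) :
    ∃ (j : Matrix A C R) (t : Matrix C A R), j.map a = j₀ ∧ π * j = 0 ∧ t * j = 1 ∧
      (∀ X : Matrix A C R, π * X = 0 → j * (t * X) = X) ∧
      ∀ x : A → R, π *ᵥ x = 0 → ∃ y, j *ᵥ y = x := by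
  obtain ⟨s₀, hs₀⟩ := hs
  obtain ⟨t₀, ht₀⟩ := ht
  obtain ⟨s, hs, hsa⟩ := exists_rightInv_lift ha π hs₀
  choose l hl using ha
  set P : Matrix A A R := 1 - s * π with hP
  have hPa : P.map a = 1 - s₀ * π.map a := by
    rw [hP, Matrix.map_sub a (map_sub a), matMap_mul, hsa,
      Matrix.map_one a (map_zero a) (map_one a)]
  set j := P * j₀.map l with hjdef
  have hπP : π * P = 0 := by
    rw [hP, Matrix.mul_sub, Matrix.mul_one, ← Matrix.mul_assoc, hs, Matrix.one_mul, sub_self]
  have hja : j.map a = j₀ := by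
    rw [hjdef, matMap_mul, hPa, show (j₀.map l).map a = j₀ by ext i c; exact hl _, Matrix.sub_mul,
      Matrix.one_mul, Matrix.mul_assoc, hπj, Matrix.mul_zero, sub_zero]
  have hπj' : π * j = 0 := by rw [hjdef, ← Matrix.mul_assoc, hπP, Matrix.zero_mul]
  obtain ⟨t, ht, hta⟩ := exists_leftInv_lift (fun o => ⟨l o, hl o⟩) j (s₀ := t₀) (by rw [hja, ht₀])
  set E : Matrix A A R := s * π + j * t * P with hE
  have hQ : j₀ * t₀ * (1 - s₀ * π.map a) = 1 - s₀ * π.map a := by
    refine Matrix.ext_iff_mulVec.mpr fun v => ?_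
    obtain ⟨y, hy⟩ := hex ((1 - s₀ * π.map a) *ᵥ v) (by
      rw [Matrix.mulVec_mulVec, Matrix.mul_sub, Matrix.mul_one, ← Matrix.mul_assoc, hs₀,
        Matrix.one_mul, sub_self, Matrix.zero_mulVec])
    rw [← Matrix.mulVec_mulVec, ← hy, Matrix.mulVec_mulVec, Matrix.mul_assoc, ht₀, Matrix.mul_one]
  obtain ⟨u, hu⟩ := isUnit_of_matMap_eq_one a (M := E) (by
    rw [hE, Matrix.map_add a (map_add a), matMap_mul, matMap_mul, matMap_mul, hja, hta, hsa, hPa,
      hQ, add_sub_cancel])
  have key : ∀ x : A → R, π *ᵥ x = 0 → j *ᵥ (t *ᵥ x) = x := by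
    intro x hx
    have h1 : P *ᵥ x = x := by
      rw [hP, Matrix.sub_mulVec, Matrix.one_mulVec, ← Matrix.mulVec_mulVec, hx, Matrix.mulVec_zero,
        sub_zero]
    have h2 : E *ᵥ x = j *ᵥ (t *ᵥ x) := by
      rw [hE, Matrix.add_mulVec, ← Matrix.mulVec_mulVec, hx, Matrix.mulVec_zero, zero_add,
        ← Matrix.mulVec_mulVec, h1, Matrix.mulVec_mulVec]
    have h3 : E * j = j := by
      have hPj : P * j = j := by
        rw [hP, Matrix.sub_mul, Matrix.one_mul, Matrix.mul_assoc, hπj', Matrix.mul_zero, sub_zero]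
      rw [hE, Matrix.add_mul, Matrix.mul_assoc, hπj', Matrix.mul_zero, zero_add, Matrix.mul_assoc,
        hPj, Matrix.mul_assoc, ht, Matrix.mul_one]
    have h4 : E *ᵥ (j *ᵥ (t *ᵥ x) - x) = 0 := by
      rw [Matrix.mulVec_sub, Matrix.mulVec_mulVec, h3, h2, sub_self]
    have h5 := congrArg (((u⁻¹ : (Matrix A A R)ˣ) : Matrix A A R) *ᵥ ·) h4
    simp only [Matrix.mulVec_mulVec, ← hu, u.inv_mul, Matrix.one_mulVec, Matrix.mulVec_zero] at h5
    rw [Matrix.mulVec_mulVec]
    exact sub_eq_zero.mp h5
  clear_value j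
  refine ⟨j, t, hja, hπj', ht, fun X hX => Matrix.ext_iff_mulVec.mpr fun v => ?_,
    fun x hx => ⟨_, key x hx⟩⟩
  rw [← Matrix.mulVec_mulVec, ← Matrix.mulVec_mulVec]
  refine key _ ?_
  rw [Matrix.mulVec_mulVec, hX, Matrix.zero_mulVec]

section SubAct

variable {O' : Type} [CommRing O'] [Algebra O' R] {I : Type}
  (act : MvPolynomial I O' →ₐ[O'] Matrix A A R) (j : Matrix A C R) (t : Matrix C A R)
  (htj : t * j = 1) (hst : ∀ s, j * (t * (act s * j)) = act s * j)

/-- The action on the image of `j`. -/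
def subAct : MvPolynomial I O' →ₐ[O'] Matrix C C R :=
  AlgHom.ofLinearMap
    { toFun := fun s => t * (act s * j)
      map_add' := fun x y => by rw [map_add, Matrix.add_mul, Matrix.mul_add]
      map_smul' := fun c x => by
        rw [map_smul, Matrix.smul_mul, Matrix.mul_smul, RingHom.id_apply] }
    (show t * (act 1 * j) = 1 by rw [map_one, Matrix.one_mul, htj])
    fun x y => show t * (act (x * y) * j) = t * (act x * j) * (t * (act y * j)) by
      rw [map_mul, Matrix.mul_assoc (act x), Matrix.mul_assoc t, Matrix.mul_assoc (act x) j, hst y]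

theorem subAct_apply (s : MvPolynomial I O') : subAct act j t htj hst s = t * (act s * j) := rfl

theorem act_mul_eq_subAct (s : MvPolynomial I O') :
    act s * j = j * subAct act j t htj hst s := (hst s).symm

open FLTAgent.Lower.Levels in
/-- Invertibility away from the residual eigenvalues passes to the image of `j`. -/
theorem unitAway_subAct [IsNoetherianRing O'] [Module.Finite O' (Matrix A A R)]
    [Nontrivial (Matrix A A R)] {k : Type} [Field k] {σ : O' →+* k} {θ : I → k}
    (h : UnitAway act σ θ) : UnitAway (subAct act j t htj hst) σ θ := by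
  intro s hs
  have h1 : IsUnit (Ideal.Quotient.mk _ s : ImgRing act) :=
    isUnit_of_imgTheta_ne_zero h (t := Ideal.Quotient.mk _ s) hs
  have h2 := (h1.map (imgMap (act' := subAct act j t htj hst) (AlgHom.id O' _)
    fun x hx => by rw [AlgHom.id_apply, subAct_apply, hx, Matrix.zero_mul, Matrix.mul_zero])).map
    (imgAct (subAct act j t htj hst))
  rwa [imgMap_mk, AlgHom.id_apply, imgAct_mk] at h2

end SubAct

/-- Invertibility of a matrix descends along a faithful action of a commutative algebra. -/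
theorem isUnit_of_isUnit_matrix {T : Type} [CommRing T] [Algebra O T]
    (Φ : T →ₐ[O] Matrix A A O) (hΦ : Function.Injective Φ) {x : T} (hx : IsUnit (Φ x)) :
    IsUnit x := by
  have hc : IsUnit ((Φ x).charpoly.coeff 0) := by
    have h := (Matrix.isUnit_iff_isUnit_det _).mp hx
    rw [Matrix.det_eq_sign_charpoly_coeff] at h
    exact isUnit_of_mul_isUnit_right h
  have h1 : Polynomial.aeval x (Φ x).charpoly = 0 := hΦ (by
    rw [← Polynomial.aeval_algHom_apply, Matrix.aeval_self_charpoly, map_zero])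
  rw [← Polynomial.X_mul_divX_add (Φ x).charpoly, map_add, map_mul, Polynomial.aeval_X,
    Polynomial.aeval_C] at h1
  refine isUnit_of_mul_isUnit_left (y := -Polynomial.aeval x (Φ x).charpoly.divX) ?_
  rw [mul_neg, eq_neg_of_add_eq_zero_left h1, neg_neg]
  exact hc.map _

end FLTAgent.Lower.Lift.HopTW
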