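import Fermat.Agent.Lower.Lift.HopTW.Lift

/-!
# Reduction of the matrices at an auxiliary level to the base

Under a map of coefficients that kills the character, the matrices `levelIota` and `levelPi` at
an auxiliary level map to the matrices `D.ι`, `D.π` of the raising step at the base level
(`map_levelIota`, `map_levelPi`): both come from the maps of trivial character, by naturality.
-/

set_option autoImplicit false

noncomputable section

open CongruenceSubgroup
open scoped MatrixGroups Matrix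

namespace FLTAgent.Lower.Lift.HopTW

open FLTAgent.Lower.Levels
open IsLocalRing (maximalIdeal)

variable {N L M q Q : ℕ} [NeZero L] [NeZero M] [NeZero Q] {O : Type} [CommRing O] {R : Type}
  [CommRing R] {k : Type} [Field k] {ι : Type} {pr : ι → Nat.Primes}
  (h : IsRaise L M q) (hQ : Q ∣ L) (η : (ZMod Q)ˣ →* Rˣ) (hne : ∀ i, (pr i : ℕ) ≠ q)

/-- `upMap` for trivial data. -/
abbrev upMap₀ (b : Fin 2) : H1 O O (tchi L O) →ₗ[O] H1 O O (tchi M O) :=
  ![(resU O h).map O, (degU O h).map O] b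

/-- `downMap` for trivial data. -/
abbrev downMap₀ (b : Fin 2) : H1 O O (tchi M O) →ₗ[O] H1 O O (tchi L O) :=
  ![(corU O h).map O, (corWU O h).map O] b

omit [NeZero L] [NeZero M] [NeZero Q] in
include hne in
theorem commutes_upMap₀ (b : Fin 2) :
    Commutes (ψ := (1 : (ZMod L)ˣ →* Oˣ)) (ψ' := (1 : (ZMod M)ˣ →* Oˣ)) pr (upMap₀ h b) := by
  fin_cases b
  · exact fun i x => res_hecke h (1 : (ZMod L)ˣ →* Oˣ) (pr i).2 (hne i) x
  · exact fun i x => deg_hecke h (1 : (ZMod L)ˣ →* Oˣ) (pr i).2 (hne i) x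

omit [NeZero L] [NeZero M] [NeZero Q] in
include hne in
theorem commutes_downMap₀ (b : Fin 2) :
    Commutes (ψ := (1 : (ZMod M)ˣ →* Oˣ)) (ψ' := (1 : (ZMod L)ˣ →* Oˣ)) pr (downMap₀ h b) := by
  fin_cases b
  · exact fun i x => cor_hecke h (1 : (ZMod L)ˣ →* Oˣ) (pr i).2 (hne i) x
  · exact fun i x => corW_hecke h (1 : (ZMod L)ˣ →* Oˣ) (pr i).2 (hne i) x

variable {τ : R →+* O} (hτη : ∀ a, τ (η a : R) = 1)

omit [NeZero L] [NeZero Q] in
include hτη in
theorem twistChar_reduces (u : (ZMod L)ˣ) :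
    τ (twistChar hQ η u : R) = (((1 : (ZMod L)ˣ →* Oˣ) u : Oˣ) : O) := by
  have e := hτη (ZMod.unitsMap hQ u)
  have e' : Units.map (τ : R →* O) (η (ZMod.unitsMap hQ u)) = 1 := Units.ext e
  show ((Units.map (τ : R →* O) ((η (ZMod.unitsMap hQ u) ^ 2)⁻¹) : Oˣ) : O) = _
  rw [map_inv, map_pow, e', one_pow, inv_one]
  rfl

omit [NeZero L] [NeZero M] [NeZero Q] in
include hτη in
theorem upChar_reduces (u : (ZMod M)ˣ) :
    τ (upChar h (twistChar hQ η) u : R) = (((1 : (ZMod M)ˣ →* Oˣ) u : Oˣ) : O) :=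
  twistChar_reduces hQ η hτη _

omit [NeZero L] [NeZero M] in
theorem coef_upMap (b : Fin 2) (x : H1 R R (chi (twistChar hQ η))) :
    coefMap (A := R) (B := O) τ.toSemilinearMap (upChar_reduces h hQ η hτη) (upMap h hQ η b x) =
      upMap₀ (O := O) h b (coefMap (A := R) (B := O) τ.toSemilinearMap (twistChar_reduces hQ η hτη) x) := by
  fin_cases b
  · exact coef_res h (twistChar_reduces hQ η hτη) τ.toSemilinearMap x
  · show coefMap (A := R) (B := O) τ.toSemilinearMap (upChar_reduces h hQ η hτη)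
      (((etaQ h η : Rˣ) : R) • _) = _
    rw [LinearMap.map_smulₛₗ, hτη, one_smul]
    exact coef_deg h (twistChar_reduces hQ η hτη) τ.toSemilinearMap x

omit [NeZero L] [NeZero M] in
theorem coef_downMap (b : Fin 2) (x : H1 R R (chi (upChar h (twistChar hQ η)))) :
    coefMap (A := R) (B := O) τ.toSemilinearMap (twistChar_reduces hQ η hτη) (downMap h hQ η b x) =
      downMap₀ (O := O) h b (coefMap (A := R) (B := O) τ.toSemilinearMap (upChar_reduces h hQ η hτη) x) := by
  fin_cases b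
  · exact coef_cor h (twistChar_reduces hQ η hτη) τ.toSemilinearMap x
  · show coefMap (A := R) (B := O) τ.toSemilinearMap (twistChar_reduces hQ η hτη)
      (((etaQ h η : Rˣ) : R) • _) = _
    rw [LinearMap.map_smulₛₗ, hτη, one_smul]
    exact coef_corW h (twistChar_reduces hQ η hτη) τ.toSemilinearMap x

variable [Finite k] [IsLocalRing O] [IsNoetherianRing O] [IsAdicComplete (maximalIdeal O) O]
  [NeZero N] [Fact q.Prime] {σ : O →+* k} {σR : R →+* k} {θ θ' : ι → k} {d₀ d₁ : ℕ}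
  {F : Frame (twistChar hQ η) pr σR θ' d₀} {F' : Frame (upChar h (twistChar hQ η)) pr σR θ' d₁}
  {G : Frame (1 : (ZMod L)ˣ →* Oˣ) pr σ θ' d₀} {G' : Frame (1 : (ZMod M)ˣ →* Oˣ) pr σ θ' d₁}
  {hqN : ¬ q ∣ N} {F₀ : Frame (1 : (ZMod N)ˣ →* Oˣ) pr σ θ d₀}
  {F₁ : Frame (1 : (ZMod (N * q))ˣ →* Oˣ) pr σ θ d₁}
  (hd : N ∣ L) (hd' : N * q ∣ M)
  (hG : ∀ i, G.vec i = stabMap pr σ θ' hd (F₀.vec i))
  (hG' : ∀ i, G'.vec i = stabMap pr σ θ' hd' (F₁.vec i))
  (hF : F.IsLift G τ (twistChar_reduces hQ η hτη))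
  (hF' : F'.IsLift G' τ (upChar_reduces h hQ η hτη))
  (D : HopQ.HopData pr σ θ hqN F₀ F₁) (hσ : Function.Surjective σ)

omit [NeZero L] [Finite k] [IsLocalRing O] [IsNoetherianRing O]
  [IsAdicComplete (maximalIdeal O) O] in
theorem combo_stab {d : ℕ} {N' L' : ℕ} {hd : N' ∣ L'}
    {G : Frame (1 : (ZMod L')ˣ →* Oˣ) pr σ θ' d} {F₀ : Frame (1 : (ZMod N')ˣ →* Oˣ) pr σ θ d}
    (hG : ∀ i, G.vec i = stabMap pr σ θ' hd (F₀.vec i)) (c : Fin d → O) :
    G.combo c = stabMap pr σ θ' hd (F₀.combo c) := by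
  rw [Frame.combo, Frame.combo, Fintype.linearCombination_apply, Fintype.linearCombination_apply,
    map_sum]
  exact Finset.sum_congr rfl fun i _ => by rw [map_smul, hG]

include hG hG' hσ hne in
theorem frameMat_upMap₀ (b : Fin 2) :
    frameMat G G' (upMap₀ h b) (commutes_upMap₀ h hne b) =
      Matrix.of fun a i => D.ι a (i, b) := by
  have h₀ : IsRaise N (N * q) q := ⟨Fact.out, hqN, rfl⟩
  refine frameMat_eq G G' fun c => ?_
  have e : D.ι *ᵥ (fun x : Fin d₀ × Fin 2 => if x.2 = b then c x.1 else 0) =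
      (Matrix.of fun a i => D.ι a (i, b)) *ᵥ c := by
    funext a
    simp [Matrix.mulVec, dotProduct, Fintype.sum_prod_type]
  have key : ∀ (g₀ : H1 O O (tchi N O) →ₗ[O] H1 O O (tchi (N * q) O))
      (g : H1 O O (tchi L O) →ₗ[O] H1 O O (tchi M O))
      (_ : Commutes (ψ := (1 : (ZMod L)ˣ →* Oˣ)) (ψ' := (1 : (ZMod M)ˣ →* Oˣ)) pr g)
      (_ : ∀ x, g ((resSys O hd).map O x) = (resSys O hd').map O (g₀ x))
      (_ : F₁.combo (D.ι *ᵥ fun x : Fin d₀ × Fin 2 => if x.2 = b then c x.1 else 0) =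
        g₀ (F₀.combo c)),
      G'.combo ((Matrix.of fun a i => D.ι a (i, b)) *ᵥ c) = g (G.combo c) := by
    intro g₀ g hg hres hι
    rw [combo_stab hG', combo_stab hG, ← e, hι,
      stabMap_natural hσ hd hd' g₀ g hres fun s x => hg.famAct s x]
  have hz : F₀.combo (fun _ => (0 : O)) = 0 := map_zero F₀.combo
  fin_cases b
  · refine key ((degOne N O q).map O) _ (commutes_upMap₀ h hne 0) (fun x => ?_) ?_
    · show (resU O h).map O _ = _
      rw [res_res h h₀ hd hd', resT_one]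
    · rw [D.combo_ι, HopQ.iotaQ_apply]
      simp [hz]
  · refine key ((degV N O (Fact.out : q.Prime)).map O) _ (commutes_upMap₀ h hne 1) (fun x => ?_) ?_
    · show (degU O h).map O _ = _
      rw [deg_res h h₀ hd hd', degT_one]
    · rw [D.combo_ι, HopQ.iotaQ_apply]
      simp [hz]

include hG hG' hσ hne in
theorem frameMat_downMap₀ (b : Fin 2) :
    frameMat G' G (downMap₀ h b) (commutes_downMap₀ h hne b) =
      Matrix.of fun i a => D.π (i, b) a := by
  have h₀ : IsRaise N (N * q) q := ⟨Fact.out, hqN, rfl⟩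
  refine frameMat_eq G' G fun c => ?_
  have key : ∀ (g₀ : H1 O O (tchi (N * q) O) →ₗ[O] H1 O O (tchi N O))
      (g : H1 O O (tchi M O) →ₗ[O] H1 O O (tchi L O))
      (_ : Commutes (ψ := (1 : (ZMod M)ˣ →* Oˣ)) (ψ' := (1 : (ZMod L)ˣ →* Oˣ)) pr g)
      (_ : ∀ x, g ((resSys O hd').map O x) = (resSys O hd).map O (g₀ x))
      (_ : F₀.combo (fun i => (D.π *ᵥ c) (i, b)) = g₀ (F₁.combo c)),
      G.combo ((Matrix.of fun i a => D.π (i, b) a) *ᵥ c) = g (G'.combo c) := by
    intro g₀ g hg hres hπ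
    rw [combo_stab hG, combo_stab hG', stabMap_natural hσ hd' hd g₀ g hres fun s x => hg.famAct s x,
      ← hπ]
    rfl
  have e := D.combo_π c
  rw [HopQ.piQ_apply, Prod.mk.injEq] at e
  fin_cases b
  · refine key ((corSys O (Fact.out : q.Prime) hqN).map O) _ (commutes_downMap₀ h hne 0)
      (fun x => ?_) e.1.symm
    show (corU O h).map O _ = _
    rw [cor_res_level h h₀ hd hd', corT_one]
  · refine key (((corSys O (Fact.out : q.Prime) hqN).map O).comp
      ((wSys O (Fact.out : q.Prime) hqN).map O)) _ (commutes_downMap₀ h hne 1) (fun x => ?_)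
      e.2.symm
    show (corWU O h).map O _ = _
    rw [corW_res_level h h₀ hd hd', corWT_one]
    rfl

include hG hG' hF hF' hσ in
/-- `ι` reduces to the `ι` of the base. -/
theorem map_levelIota : (levelIota h hQ η hne F F').map τ = D.ι := by
  refine Matrix.ext fun a ⟨i, b⟩ => ?_
  have e := map_frameMat F F' hF hF' (upMap h hQ η b) (commutes_upMap h hQ η hne b) (upMap₀ h b)
    (commutes_upMap₀ h hne b) (coef_upMap h hQ η hτη b)
  rw [frameMat_upMap₀ h hne hd hd' hG hG' D hσ b] at e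
  exact congrFun (congrFun e a) i

include hG hG' hF hF' hσ in
/-- `π` reduces to the `π` of the base. -/
theorem map_levelPi : (levelPi h hQ η hne F F').map τ = D.π := by
  refine Matrix.ext fun ⟨i, b⟩ a => ?_
  have e := map_frameMat F' F hF' hF (downMap h hQ η b) (commutes_downMap h hQ η hne b)
    (downMap₀ h b) (commutes_downMap₀ h hne b) (coef_downMap h hQ η hτη b)
  rw [frameMat_downMap₀ h hne hd hd' hG hG' D hσ b] at e
  exact congrFun (congrFun e i) a

end FLTAgent.Lower.Lift.HopTW
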