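import Fermat.Agent.Lower.Lift.HopTW.LiftBase
import Fermat.Agent.Lower.Lift.HopTW.Split
import Fermat.Agent.Lower.Levels.Embed

/-!
# The new vectors at an auxiliary level

`LevelKer` is the kernel of `π` at an auxiliary level as a split submodule stable under the
operators; `exists_levelKer` lifts it from the base level, `LevelKer.map_act` says that its action
reduces to the new action of the base, and `LevelKer.emb_spec` embeds it by the twist in the
periods at level `M Q` as classes killed by both corestrictions. Also `exists_periodEmb_up`, the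
period embedding of a frame at the upper level.
-/

set_option autoImplicit false

noncomputable section

open CongruenceSubgroup
open scoped MatrixGroups Matrix

namespace FLTAgent.Lower.Lift.HopTW

open FLTAgent.Lower.Levels
open IsLocalRing (maximalIdeal)

variable {N L M q Q : ℕ} {O : Type} [CommRing O] {R : Type} [CommRing R] {k : Type} [Field k]
  {ι : Type} {pr : ι → Nat.Primes}

/-- The embedding of a frame at the upper level, for the character `η⁻²` pulled back. -/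
theorem exists_periodEmb_up [Finite k] [NeZero M] [NeZero Q] [NeZero (M * Q)] [IsLocalRing R]
    [IsNoetherianRing R] [IsAdicComplete (maximalIdeal R) R] [IsAddTorsionFree R]
    (h : IsRaise L M q) (hQ : Q ∣ L) {η : (ZMod Q)ˣ →* Rˣ} (hsq : Squarefree Q)
    (hco : Nat.Coprime (M / Q) Q) {m : ℕ} (hodd : ∀ a, η a ^ (2 * m + 1) = 1) {σ : R →+* k}
    (hres : ∀ a, σ (η a : R) = 1) {θ : ι → k} (hfam : FamHyp M pr σ θ)
    (hpar : ParHyp (M * Q) pr θ) {d : ℕ}
    (F : Frame (upChar h (twistChar hQ η)) pr σ θ d) :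
    ∃ emb : (Fin d → R) →ₗ[R] Period.H (M * Q) R R, Function.Injective emb ∧
      (∀ x, (emb x : Additive (Gamma0 (M * Q)) →+ R) =
        h1Triv (M * Q) R R ((twM h hQ η).map R (F.combo x))) ∧
      ∀ i : ι, ¬ (pr i : ℕ) ∣ M → ∀ x, HeckeH.heckeH (M * Q) (pr i).2 R R (emb x) =
        emb (((η (primeUnit Q (pr i).2) : R) • F.mat (MvPolynomial.X i)) *ᵥ x) := by
  have key : ∀ (ψ : (ZMod M)ˣ →* Rˣ) (_ : ψ = twistChar (hQ.trans h.dvd) η)
      (rel : TwistRel (hQ.trans h.dvd) (dvd_refl (M * Q)) η ψ (1 : (ZMod (M * Q))ˣ →* Rˣ))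
      (F : Frame ψ pr σ θ d),
      ∃ emb : (Fin d → R) →ₗ[R] Period.H (M * Q) R R, Function.Injective emb ∧
        (∀ x, (emb x : Additive (Gamma0 (M * Q)) →+ R) =
          h1Triv (M * Q) R R ((twistSys rel).map R (F.combo x))) ∧
        ∀ i : ι, ¬ (pr i : ℕ) ∣ M → ∀ x, HeckeH.heckeH (M * Q) (pr i).2 R R (emb x) =
          emb (((η (primeUnit Q (pr i).2) : R) • F.mat (MvPolynomial.X i)) *ᵥ x) := by
    rintro ψ rfl rel F
    exact exists_periodEmb (hQ.trans h.dvd) hsq hco hodd hres hfam hpar F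
  exact key _ (upChar_twistChar h hQ η) _ F

/-- The operators of a frame for a larger family with the same vectors. -/
theorem mat_eq_of_vec_eq {ψ : (ZMod L)ˣ →* Rˣ} {σ : R →+* k} {θ : ι → k} {d : ℕ} {ι' : Type}
    {pr' : ι' → Nat.Primes} {θ' : ι' → k} (e : ι → ι') (he : ∀ i, pr' (e i) = pr i)
    (F : Frame ψ pr σ θ d) (F' : Frame ψ pr' σ θ' d) (hv : F'.vec = F.vec)
    (s : MvPolynomial ι R) : F'.mat (MvPolynomial.rename e s) = F.mat s := by
  refine F.mat_unique fun c => ?_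
  have hc : ∀ c, F.combo c = F'.combo c := fun c => by rw [Frame.combo, Frame.combo, hv]
  rw [F.combo_mat, hc, hc, F'.combo_mat]
  have key : ∀ x, famAct ψ pr' R (MvPolynomial.rename e s) x = famAct ψ pr R s x := by
    induction s using MvPolynomial.induction_on with
    | C a => intro x; simp [← MvPolynomial.algebraMap_eq]
    | add a b ha hb => intro x; simp [map_add, ha, hb]
    | mul_X a i ha =>
      intro x
      rw [map_mul, map_mul, MvPolynomial.rename_X, Module.End.mul_apply, ha, map_mul,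
        Module.End.mul_apply, famAct_X, famAct_X, he i]
  exact key _

/-- `η(q) T_q` is the operator at `q` of a frame for a family containing `q`. -/
theorem levelT_eq (h : IsRaise L M q) (hQ : Q ∣ L) (η : (ZMod Q)ˣ →* Rˣ) [NeZero Q] {σ : R →+* k}
    {θ : ι → k} {d : ℕ} (F : Frame (twistChar hQ η) pr σ θ d) {ι' : Type}
    {pr' : ι' → Nat.Primes} {θ' : ι' → k} (F' : Frame (twistChar hQ η) pr' σ θ' d)
    (hv : F'.vec = F.vec) (i : ι') (hi : pr' i = ⟨q, h.prime⟩) :
    levelT h hQ η F = ((etaQ h η : Rˣ) : R) • F'.mat (MvPolynomial.X i) := by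
  refine F.mat_unique fun c => ?_
  rw [combo_levelT, Matrix.smul_mulVec, map_smul, show F.combo = F'.combo by
    rw [Frame.combo, Frame.combo, hv], F'.combo_mat, famAct_X, hi]

/-! ### Frames given for the character `η⁻²` at the upper level -/

section Up

/-- A frame for `η⁻²` at the upper level as a frame for the pulled back character. -/
def upFrame {σR : R →+* k} {θ : ι → k} {d : ℕ} (h : IsRaise L M q) (hQ : Q ∣ L)
    (η : (ZMod Q)ˣ →* Rˣ) (F : Frame (twistChar (hQ.trans h.dvd) η) pr σR θ d) :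
    Frame (upChar h (twistChar hQ η)) pr σR θ d :=
  (upChar_twistChar h hQ η).symm ▸ F

theorem upFrame_twist [NeZero Q] {σR : R →+* k} {θ : ι → k} {d : ℕ} (h : IsRaise L M q)
    (hQ : Q ∣ L) (η : (ZMod Q)ˣ →* Rˣ) (F : Frame (twistChar (hQ.trans h.dvd) η) pr σR θ d)
    (x : Fin d → R) :
    (twM h hQ η).map R ((upFrame h hQ η F).combo x) =
      twistMap (hQ.trans h.dvd) η (F.combo x) := by
  have key : ∀ (ψ : (ZMod M)ˣ →* Rˣ) (e : ψ = twistChar (hQ.trans h.dvd) η)
      (rel : TwistRel (hQ.trans h.dvd) (dvd_refl (M * Q)) η ψ (1 : (ZMod (M * Q))ˣ →* Rˣ)),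
      (twistSys rel).map R ((e.symm ▸ F : Frame ψ pr σR θ d).combo x) =
        twistMap (hQ.trans h.dvd) η (F.combo x) := by
    rintro ψ rfl rel
    rfl
  exact key _ (upChar_twistChar h hQ η) _

theorem upFrame_mat {σR : R →+* k} {θ : ι → k} {d : ℕ} (h : IsRaise L M q) (hQ : Q ∣ L)
    (η : (ZMod Q)ˣ →* Rˣ) (F : Frame (twistChar (hQ.trans h.dvd) η) pr σR θ d)
    (s : MvPolynomial ι R) : (upFrame h hQ η F).mat s = F.mat s := by
  have key : ∀ (ψ : (ZMod M)ˣ →* Rˣ) (e : ψ = twistChar (hQ.trans h.dvd) η),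
      (e.symm ▸ F : Frame ψ pr σR θ d).mat s = F.mat s := by
    rintro ψ rfl
    rfl
  exact key _ (upChar_twistChar h hQ η)

theorem upFrame_isLift {σR : R →+* k} {σ : O →+* k} {θ : ι → k} {d : ℕ} (h : IsRaise L M q)
    (hQ : Q ∣ L) (η : (ZMod Q)ˣ →* Rˣ) {τ : R →+* O} {χ : (ZMod M)ˣ →* Oˣ}
    {hτ : ∀ u, τ (twistChar (hQ.trans h.dvd) η u : R) = (χ u : O)}
    {hτ' : ∀ u, τ (upChar h (twistChar hQ η) u : R) = (χ u : O)}
    {F : Frame (twistChar (hQ.trans h.dvd) η) pr σR θ d} {G : Frame χ pr σ θ d}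
    (hF : F.IsLift G τ hτ) : (upFrame h hQ η F).IsLift G τ hτ' := by
  have key : ∀ (ψ : (ZMod M)ˣ →* Rˣ) (e : ψ = twistChar (hQ.trans h.dvd) η)
      (hτ' : ∀ u, τ (ψ u : R) = (χ u : O)),
      (e.symm ▸ F : Frame ψ pr σR θ d).IsLift G τ hτ' := by
    rintro ψ rfl hτ'
    exact hF
  exact key _ (upChar_twistChar h hQ η) hτ'

end Up

variable [NeZero N] [NeZero L] [NeZero M] [NeZero Q] [Fact q.Prime] [Finite k] [IsLocalRing O]
  [IsNoetherianRing O] [IsAdicComplete (maximalIdeal O) O]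
  (h : IsRaise L M q) (hQ : Q ∣ L) (η : (ZMod Q)ˣ →* Rˣ) (hne : ∀ i, (pr i : ℕ) ≠ q)
  {τ : R →+* O} (hτη : ∀ a, τ (η a : R) = 1) {σ : O →+* k} {σR : R →+* k} {θ θ' : ι → k}
  {d₀ d₁ : ℕ}
  {F : Frame (twistChar hQ η) pr σR θ' d₀} {F' : Frame (upChar h (twistChar hQ η)) pr σR θ' d₁}
  {G : Frame (1 : (ZMod L)ˣ →* Oˣ) pr σ θ' d₀} {G' : Frame (1 : (ZMod M)ˣ →* Oˣ) pr σ θ' d₁}
  {hqN : ¬ q ∣ N} {F₀ : Frame (1 : (ZMod N)ˣ →* Oˣ) pr σ θ d₀}
  {F₁ : Frame (1 : (ZMod (N * q))ˣ →* Oˣ) pr σ θ d₁}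
  (hd : N ∣ L) (hd' : N * q ∣ M)
  (hG : ∀ i, G.vec i = stabMap pr σ θ' hd (F₀.vec i))
  (hG' : ∀ i, G'.vec i = stabMap pr σ θ' hd' (F₁.vec i))
  (hF : F.IsLift G τ (twistChar_reduces hQ η hτη))
  (hF' : F'.IsLift G' τ (upChar_reduces h hQ η hτη))
  (D : HopQ.HopData pr σ θ hqN F₀ F₁) (hσ : Function.Surjective σ)
  [IsLocalHom τ] (hτ : Function.Surjective τ)

/-- The kernel of `π` at the auxiliary level. -/
structure LevelKer (F : Frame (twistChar hQ η) pr σR θ' d₀)
    (F' : Frame (upChar h (twistChar hQ η)) pr σR θ' d₁)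
    (D : HopQ.HopData pr σ θ hqN F₀ F₁) (τ : R →+* O) : Type where
  j : Matrix (Fin d₁) (Fin D.dNew) R
  t : Matrix (Fin D.dNew) (Fin d₁) R
  map_j : j.map τ = D.j
  π_j : levelPi h hQ η hne F F' * j = 0
  t_j : t * j = 1
  stable : ∀ s : MvPolynomial ι R, j * (t * (F'.mat s * j)) = F'.mat s * j
  exact : ∀ x, levelPi h hQ η hne F F' *ᵥ x = 0 → ∃ y, j *ᵥ y = x

include hG hG' hF hF' hσ hτ in
/-- The kernel of `π` lifts the kernel of the base. -/
theorem exists_levelKer : Nonempty (LevelKer h hQ η hne F F' D τ) := by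
  have hπ := map_levelPi h hQ η hne hτη hd hd' hG hG' hF hF' D hσ
  obtain ⟨j, t, h1, h2, h3, h4, h5⟩ :=
    exists_ker_lift hτ (levelPi h hQ η hne F F') D.j (by rw [hπ]; exact D.π_surjective)
      (by rw [hπ]; exact D.π_j) D.j_split (by rw [hπ]; exact D.exact)
  refine ⟨⟨j, t, h1, h2, h3, fun s => h4 _ ?_, h5⟩⟩
  rw [← Matrix.mul_assoc, ← levelPi_comm, Matrix.mul_assoc, h2, Matrix.mul_zero]

omit [Finite k] [IsLocalRing O] [IsNoetherianRing O] [IsAdicComplete (maximalIdeal O) O]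
  [NeZero N] [NeZero L] [NeZero M] [IsLocalHom τ] in
/-- The action on the kernel reduces to the new action of the base. -/
theorem LevelKer.map_act (K : LevelKer h hQ η hne F F' D τ) {s : MvPolynomial ι R}
    {s₀ : MvPolynomial ι O} (hs : (F'.mat s).map τ = F₁.mat s₀) :
    (K.t * (F'.mat s * K.j)).map τ = D.newMat s₀ := by
  have e : (1 : Matrix (Fin D.dNew) (Fin D.dNew) O) = K.t.map τ * D.j := by
    rw [← K.map_j, ← matMap_mul, K.t_j, Matrix.map_one τ (map_zero τ) (map_one τ)]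
  rw [matMap_mul, matMap_mul, hs, K.map_j, D.j_comm, ← Matrix.mul_assoc, ← e, Matrix.one_mul]

omit [Finite k] [IsLocalRing O] [IsNoetherianRing O] [IsAdicComplete (maximalIdeal O) O]
  [NeZero N] [NeZero L] [NeZero M] [IsLocalHom τ] in
/-- The kernel in the periods: injective, and killed by both corestrictions. -/
theorem LevelKer.emb_spec (K : LevelKer h hQ η hne F F' D τ) [NeZero (M * Q)]
    {emb : (Fin d₁ → R) →ₗ[R] Period.H (M * Q) R R} (hemb : Function.Injective emb)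
    (hval : ∀ x, (emb x : Additive (Gamma0 (M * Q)) →+ R) =
      h1Triv (M * Q) R R ((twM h hQ η).map R (F'.combo x))) :
    Function.Injective (emb ∘ₗ K.j.mulVecLin) ∧
      ∀ y, ∃ z : H1 R R (tchi (M * Q) R),
        ((emb ∘ₗ K.j.mulVecLin) y : Additive (Gamma0 (M * Q)) →+ R) = h1Triv (M * Q) R R z ∧
          (corU R (h.mul_aux hQ)).map R z = 0 ∧ (corWU R (h.mul_aux hQ)).map R z = 0 := by
  constructor
  · intro y y' e
    have e' := congrArg (K.t *ᵥ ·) (hemb e)
    simpa [Matrix.mulVec_mulVec, K.t_j] using e'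
  · intro y
    refine ⟨(twM h hQ η).map R (F'.combo (K.j *ᵥ y)), hval _, ?_⟩
    have hx : levelPi h hQ η hne F F' *ᵥ (K.j *ᵥ y) = 0 := by
      rw [Matrix.mulVec_mulVec, K.π_j, Matrix.zero_mulVec]
    constructor
    · rw [← tw_cor h hQ η, show (corT h (twistChar hQ η)).map R (F'.combo (K.j *ᵥ y)) = 0 from
        downMap_eq_zero h hQ η hne F F' hx 0, map_zero]
    · rw [← tw_corW h hQ η, show ((etaQ h η : Rˣ) : R) • (corWT h (twistChar hQ η)).map R
        (F'.combo (K.j *ᵥ y)) = 0 from downMap_eq_zero h hQ η hne F F' hx 1, map_zero]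

/-- Operators intertwined by `emb` act on the kernel by the induced matrices. -/
theorem emb_kernel_comm {n d : ℕ} {A : Type} [AddCommGroup A] [Module R A] (T : A →ₗ[R] A)
    (emb : (Fin n → R) →ₗ[R] A) (X : Matrix (Fin n) (Fin n) R)
    (hX : ∀ x, T (emb x) = emb (X *ᵥ x)) (j : Matrix (Fin n) (Fin d) R)
    (Y : Matrix (Fin d) (Fin d) R) (hY : X * j = j * Y) (y : Fin d → R) :
    T ((emb ∘ₗ j.mulVecLin) y) = (emb ∘ₗ j.mulVecLin) (Y *ᵥ y) := by
  simp only [LinearMap.comp_apply, Matrix.mulVecLin_apply]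
  rw [hX, Matrix.mulVec_mulVec, hY, Matrix.mulVec_mulVec]


end FLTAgent.Lower.Lift.HopTW
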