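import Fermat.Agent.Lower.Lift.HopTW.Twist
import Fermat.Agent.Lower.Lift.HopTW.Frames
import Fermat.Agent.Lower.Lift.HopQ.Coord

/-!
# The matrices of raising `q` at an auxiliary level

`levelIota`, `levelPi` and `levelT` are the matrices in frames of `(res, η(q) [q])`,
`(cor, η(q) cor W)` and `η(q) T_q`. They commute with the operators away from `q`
(`levelIota_comm`, `levelPi_comm`) and satisfy the formula for `π ι` (`levelPi_iota`);
`downMap_eq_zero` translates `π x = 0` back into vanishing of the corestrictions.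
-/

set_option autoImplicit false

noncomputable section

open CongruenceSubgroup
open scoped MatrixGroups Matrix

namespace FLTAgent.Lower.Lift.HopTW

open FLTAgent.Lower.Levels

variable {L M q Q : ℕ} {R : Type} [CommRing R] {k : Type} [Field k] {ι : Type}
  {pr : ι → Nat.Primes} (h : IsRaise L M q) (hQ : Q ∣ L) (η : (ZMod Q)ˣ →* Rˣ)
  (hne : ∀ i, (pr i : ℕ) ≠ q)

/-- The maps into level `M`. -/
abbrev upMap (b : Fin 2) :
    H1 R R (chi (twistChar hQ η)) →ₗ[R] H1 R R (chi (upChar h (twistChar hQ η))) :=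
  ![(resT h (twistChar hQ η)).map R,
    ((etaQ h η : Rˣ) : R) • (degT h (twistChar hQ η)).map R] b

/-- The maps down to level `L`. -/
abbrev downMap (b : Fin 2) :
    H1 R R (chi (upChar h (twistChar hQ η))) →ₗ[R] H1 R R (chi (twistChar hQ η)) :=
  ![(corT h (twistChar hQ η)).map R,
    ((etaQ h η : Rˣ) : R) • (corWT h (twistChar hQ η)).map R] b

/-- The operator `η(q) T_q`. -/
abbrev twHecke : H1 R R (chi (twistChar hQ η)) →ₗ[R] H1 R R (chi (twistChar hQ η)) :=
  ((etaQ h η : Rˣ) : R) • heckeOp h.prime (twistChar hQ η) R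

variable [NeZero Q]

include hne in
theorem commutes_upMap (b : Fin 2) : Commutes pr (upMap h hQ η b) := by
  fin_cases b
  · exact fun i x => res_hecke h _ (pr i).2 (hne i) x
  · exact Commutes.smul (fun i x => deg_hecke h _ (pr i).2 (hne i) x) _

include hne in
theorem commutes_downMap (b : Fin 2) : Commutes pr (downMap h hQ η b) := by
  fin_cases b
  · exact fun i x => cor_hecke h _ (pr i).2 (hne i) x
  · exact Commutes.smul (fun i x => corW_hecke h _ (pr i).2 (hne i) x) _

theorem commutes_twHecke : Commutes pr (twHecke h hQ η) :=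
  Commutes.smul (fun _ _ => heckeOp_comm _ _ _ _) _

variable {σ : R →+* k} {θ : ι → k} {d₀ d₁ : ℕ}
  (F : Frame (twistChar hQ η) pr σ θ d₀) (F' : Frame (upChar h (twistChar hQ η)) pr σ θ d₁)

/-- The matrix of both maps up. -/
def levelIota : Matrix (Fin d₁) (Fin d₀ × Fin 2) R :=
  Matrix.of fun a c => frameMat F F' (upMap h hQ η c.2) (commutes_upMap h hQ η hne c.2) a c.1

/-- The matrix of both maps down. -/
def levelPi : Matrix (Fin d₀ × Fin 2) (Fin d₁) R :=
  Matrix.of fun c a => frameMat F' F (downMap h hQ η c.2) (commutes_downMap h hQ η hne c.2) c.1 a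

/-- The matrix of `η(q) T_q`. -/
def levelT : Matrix (Fin d₀) (Fin d₀) R :=
  frameMat F F (twHecke h hQ η) (commutes_twHecke h hQ η)

theorem combo_levelT (c : Fin d₀ → R) : F.combo (levelT h hQ η F *ᵥ c) =
    ((etaQ h η : Rˣ) : R) • heckeOp h.prime (twistChar hQ η) R (F.combo c) :=
  combo_frameMat _ _ _ _ c

theorem combo_levelPi (b : Fin 2) (x : Fin d₁ → R) :
    F.combo (fun i => (levelPi h hQ η hne F F' *ᵥ x) (i, b)) = downMap h hQ η b (F'.combo x) :=
  combo_frameMat F' F (downMap h hQ η b) (commutes_downMap h hQ η hne b) x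

/-- `ι` intertwines the operators away from `q`. -/
theorem levelIota_comm (s : MvPolynomial ι R) :
    F'.mat s * levelIota h hQ η hne F F' =
      levelIota h hQ η hne F F' * Matrix.blockDiagonal fun _ : Fin 2 => F.mat s := by
  refine Matrix.ext fun a ⟨i, b⟩ => ?_
  have e := congrFun (congrFun (mat_mul_frameMat F F' (upMap h hQ η b)
    (commutes_upMap h hQ η hne b) s) a) i
  rw [Matrix.mul_apply] at e ⊢
  refine e.trans ?_
  simp [Matrix.mul_apply, levelIota, Fintype.sum_prod_type, Matrix.blockDiagonal_apply]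

/-- `π` intertwines the operators away from `q`. -/
theorem levelPi_comm (s : MvPolynomial ι R) :
    (Matrix.blockDiagonal fun _ : Fin 2 => F.mat s) * levelPi h hQ η hne F F' =
      levelPi h hQ η hne F F' * F'.mat s := by
  refine Matrix.ext fun ⟨i, b⟩ a => ?_
  have e := congrFun (congrFun (mat_mul_frameMat F' F (downMap h hQ η b)
    (commutes_downMap h hQ η hne b) s) i) a
  rw [Matrix.mul_apply] at e ⊢
  refine Eq.trans ?_ (e.trans ?_)
  · simp [levelPi, Fintype.sum_prod_type, Matrix.blockDiagonal_apply]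
  · simp [Matrix.mul_apply, levelPi]

theorem down_up (b b' : Fin 2) (c : Fin d₀ → R) :
    F.combo (HopQ.eMat ((q : R) + 1) (levelT h hQ η F) b b' *ᵥ c) =
      downMap h hQ η b (upMap h hQ η b' (F.combo c)) := by
  fin_cases b <;> fin_cases b' <;>
    simp [HopQ.eMat, Matrix.smul_mulVec, combo_levelT, cor_res, cor_deg, corW_res, corW_deg,
      smul_smul]
  rw [twistChar_primeUnit h hQ η]
  congr 1
  calc ((q : R) + 1)
      = ((etaQ h η ^ 2 * (etaQ h η ^ 2)⁻¹ : Rˣ) : R) * ((q : R) + 1) := by
        rw [mul_inv_cancel, Units.val_one, one_mul]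
    _ = _ := by push_cast; ring

/-- The matrix of `π ι` is `[[q + 1, η(q) T_q], [η(q) T_q, q + 1]]`. -/
theorem levelPi_iota : levelPi h hQ η hne F F' * levelIota h hQ η hne F F' =
    Matrix.of fun a b => HopQ.eMat ((q : R) + 1) (levelT h hQ η F) a.2 b.2 a.1 b.1 := by
  refine Matrix.ext fun ⟨i, b⟩ ⟨i', b'⟩ => ?_
  exact congrFun (congrFun (frameMat_mul F F' F (upMap h hQ η b') (commutes_upMap h hQ η hne b')
    (downMap h hQ η b) (commutes_downMap h hQ η hne b)
    (M := HopQ.eMat ((q : R) + 1) (levelT h hQ η F) b b') (down_up h hQ η F b b')) i) i'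

/-- Vectors killed by `π` have vanishing images at level `L`. -/
theorem downMap_eq_zero {x : Fin d₁ → R} (hx : levelPi h hQ η hne F F' *ᵥ x = 0) (b : Fin 2) :
    downMap h hQ η b (F'.combo x) = 0 := by
  rw [← combo_levelPi h hQ η hne F F' b x, hx]
  exact map_zero F.combo

end FLTAgent.Lower.Lift.HopTW
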