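import Fermat.Agent.Lower.Levels.TriSys

/-!
# Raising a prime `q` with a character: the four maps

For `M = L q`, `q ∤ L` (`IsRaise`), and a character `ψ` modulo `L` we define on `H¹` the two
degeneracy maps `resT`, `degT` and the two corestrictions `corT`, `corWT`, prove that they commute
with the Hecke operators at `ℓ ≠ q` (`res_hecke`, `deg_hecke`, `cor_hecke`, `corW_hecke`) and
compute the composites `π ∘ ι = [[q + 1, T_q], [T_q, ψ(q) (q + 1)]]` (`cor_res`, `cor_deg`,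
`corW_res`, `corW_deg`) by comparing coset representatives.
-/

set_option autoImplicit false

noncomputable section

open CongruenceSubgroup
open scoped MatrixGroups

namespace FLTAgent.Lower.Lift.HopTW

open FLTAgent.Lower.Levels
open FLTAgent.HeckeH (M2 matOf matOf_mul mkGamma0 matOf_mkGamma0 matOf_dvd heckeIdx heckeBeta
  heckeBeta_some heckeBeta_none exists_heckeBeta)

/-- `M` is `L` times the prime `q ∤ L`. -/
structure IsRaise (L M q : ℕ) : Prop where
  prime : q.Prime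
  not_dvd : ¬ q ∣ L
  eq : L * q = M

variable {L M q : ℕ} {R : Type} [CommRing R] {A : Type} [AddCommGroup A] [Module R A]

theorem IsRaise.dvd (h : IsRaise L M q) : L ∣ M := ⟨q, h.eq.symm⟩

theorem IsRaise.coprime (h : IsRaise L M q) : IsCoprime (q : ℤ) (L : ℤ) :=
  ⟨Nat.gcdA q L, Nat.gcdB q L, bezout h.prime h.not_dvd⟩

/-- The character at the upper level. -/
def upChar (h : IsRaise L M q) (ψ : (ZMod L)ˣ →* Rˣ) : (ZMod M)ˣ →* Rˣ :=
  ψ.comp (ZMod.unitsMap h.dvd)

theorem chi_upChar (h : IsRaise L M q) (ψ : (ZMod L)ˣ →* Rˣ) (γ : Gamma0 M) :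
    chi (upChar h ψ) γ = ψ (dUnit h.dvd γ) := congrArg ψ (dUnit_trans dvd_rfl h.dvd γ)

theorem chi_self (ψ : (ZMod L)ˣ →* Rˣ) (γ : Gamma0 L) : chi ψ γ = ψ (dUnit dvd_rfl γ) := rfl

theorem dUnit_inv_coe {N m : ℕ} (hm : m ∣ N) (γ : Gamma0 N) :
    (((dUnit hm γ)⁻¹ : (ZMod m)ˣ) : ZMod m) = (matOf γ 0 0 : ZMod m) := rfl

/-! ### The systems -/

theorem exists_res (h : IsRaise L M q) (γ : Gamma0 M) :
    ∃ δ : Gamma0 L, (1 : M2) * matOf γ = matOf δ * 1 := ⟨_, mat_one_coc L h.dvd γ⟩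

/-- The matrix of the second degeneracy map. -/
def dMat (q : ℕ) : M2 := !![(q : ℤ), 0; 0, 1]

theorem det_dMat (q : ℕ) : (dMat q).det = q := by simp [dMat, Matrix.det_fin_two_of]

theorem exists_deg (h : IsRaise L M q) (γ : Gamma0 M) :
    ∃ δ : Gamma0 L, dMat q * matOf γ = matOf δ * dMat q := by
  obtain ⟨hq, hqL, rfl⟩ := h
  exact exists_diag hq.ne_zero γ

theorem cor_inj (h : IsRaise L M q) (δ : Gamma0 M) (i j : Option (Fin q))
    (e : matOf (corRep h.prime h.not_dvd i) = matOf δ * matOf (corRep h.prime h.not_dvd j)) :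
    i = j := by
  obtain ⟨hq, hqL, rfl⟩ := h
  exact inj_corSys (R := ℤ) hq hqL δ i j e

theorem exists_cor (h : IsRaise L M q) (γ : Gamma0 L) (i : Option (Fin q)) :
    ∃ (δ : Gamma0 M) (j : Option (Fin q)), matOf (corRep h.prime h.not_dvd i) * matOf γ =
      matOf δ * matOf (corRep h.prime h.not_dvd j) := by
  obtain ⟨hq, hqL, rfl⟩ := h
  exact ⟨_, _, (corSys ℤ hq hqL).spec γ i⟩

theorem exists_w (h : IsRaise L M q) (γ : Gamma0 M) :
    ∃ δ : Gamma0 M, wMatV L q * matOf γ = matOf δ * wMatV L q := by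
  obtain ⟨hq, hqL, rfl⟩ := h
  exact exists_wMatV hq hqL γ

theorem wMatV_00 (h : IsRaise L M q) : ((wMatV L q 0 0 : ℤ) : ZMod L) = 1 := by
  have e := congrArg (fun z : ℤ => (z : ZMod L)) (bezout h.prime h.not_dvd)
  simp only [Int.cast_add, Int.cast_mul, Int.cast_natCast, ZMod.natCast_self, mul_zero, add_zero,
    Int.cast_one] at e
  show (((q : ℤ) * Nat.gcdA q L : ℤ) : ZMod L) = 1
  rw [Int.cast_mul, Int.cast_natCast, mul_comm, e]

variable (h : IsRaise L M q) (ψ : (ZMod L)ˣ →* Rˣ)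

/-- Restriction. -/
def resT : Sys R Unit (chi ψ) (chi (upChar h ψ)) :=
  Sys.tri dvd_rfl h.dvd ψ (fun _ => 1) (fun _ => by simp) (fun _ _ _ _ => rfl)
    (fun γ _ => (exists_res h γ).imp fun _ hδ => ⟨(), hδ⟩) (fun _ => 1) (fun _ => by simp)
    (fun _ => by simp) (chi_self ψ) (chi_upChar h ψ)

/-- The second degeneracy map. -/
def degT : Sys R Unit (chi ψ) (chi (upChar h ψ)) :=
  Sys.tri dvd_rfl h.dvd ψ (fun _ => dMat q)
    (fun _ => by rw [det_dMat]; exact_mod_cast h.prime.ne_zero) (fun _ _ _ _ => rfl)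
    (fun γ _ => (exists_deg h γ).imp fun _ hδ => ⟨(), hδ⟩)
    (fun _ => primeUnit L h.prime)
    (fun _ => by rw [coe_primeUnit h.prime h.not_dvd]; simp [dMat])
    (fun _ => by simp [dMat]) (chi_self ψ) (chi_upChar h ψ)

/-- Corestriction. -/
def corT : Sys R (Option (Fin q)) (chi (upChar h ψ)) (chi ψ) :=
  Sys.tri h.dvd dvd_rfl ψ (fun i => matOf (corRep h.prime h.not_dvd i))
    (fun _ => by rw [HeckeH.det_matOf]; exact one_ne_zero) (cor_inj h) (exists_cor h)
    (fun i => (dUnit dvd_rfl (corRep h.prime h.not_dvd i))⁻¹) (fun _ => dUnit_inv_coe _ _)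
    (fun _ => tri_entry10 dvd_rfl _) (chi_upChar h ψ) (chi_self ψ)

/-- The Atkin-Lehner operator at `q`. -/
def wT : Sys R Unit (chi (upChar h ψ)) (chi (upChar h ψ)) :=
  Sys.tri h.dvd h.dvd ψ (fun _ => wMatV L q)
    (fun _ => by rw [det_wMatV h.prime h.not_dvd]; exact_mod_cast h.prime.ne_zero)
    (fun _ _ _ _ => rfl) (fun γ _ => (exists_w h γ).imp fun _ hδ => ⟨(), hδ⟩) (fun _ => 1)
    (fun _ => by rw [Units.val_one, wMatV_00 h])
    (fun _ => by simp [wMatV]) (chi_upChar h ψ) (chi_upChar h ψ)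

theorem isTri_resT : (resT h ψ).IsTri ψ := by
  unfold resT; apply Sys.isTri_tri
theorem isTri_degT : (degT h ψ).IsTri ψ := by
  unfold degT; apply Sys.isTri_tri
theorem isTri_corT : (corT h ψ).IsTri ψ := by
  unfold corT; apply Sys.isTri_tri
theorem isTri_wT : (wT h ψ).IsTri ψ := by
  unfold wT; apply Sys.isTri_tri

theorem inj_resT : (resT h ψ).Inj := fun _ _ _ _ => rfl
theorem inj_degT : (degT h ψ).Inj := fun _ _ _ _ => rfl
theorem inj_corT : (corT h ψ).Inj := cor_inj h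

@[simp] theorem resT_β (i : Unit) : (resT h ψ).β i = 1 := rfl
@[simp] theorem degT_β (i : Unit) : (degT h ψ).β i = dMat q := rfl
@[simp] theorem corT_β (i : Option (Fin q)) :
    (corT h ψ).β i = matOf (corRep h.prime h.not_dvd i) := rfl
@[simp] theorem wT_β (i : Unit) : (wT h ψ).β i = wMatV L q := rfl

/-! ### Commutation with the Hecke operators -/

theorem up_apply (x : (ZMod M)ˣ) : upChar h ψ x = ψ (ZMod.unitsMap h.dvd x) := rfl

theorem self_apply (x : (ZMod L)ˣ) : ψ x = ψ (ZMod.unitsMap dvd_rfl x) := by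
  simp [ZMod.unitsMap_self]

theorem idx_iff {ℓ : ℕ} (hℓ : ℓ.Prime) (hne : ℓ ≠ q) (h : IsRaise L M q) (o : Option (Fin ℓ)) :
    (o = none → ¬ ℓ ∣ M) ↔ (o = none → ¬ ℓ ∣ L) := by
  obtain ⟨hq, hqL, rfl⟩ := h
  exact heckeIdx_equiv hℓ hq hne o

theorem card_idx {ℓ : ℕ} (hℓ : ℓ.Prime) (hne : ℓ ≠ q) (h : IsRaise L M q) :
    Fintype.card (heckeIdx M ℓ) = Fintype.card (heckeIdx L ℓ) :=
  Fintype.card_congr (Equiv.subtypeEquivRight (idx_iff hℓ hne h))

theorem res_hecke {ℓ : ℕ} (hℓ : ℓ.Prime) (hne : ℓ ≠ q) (x : H1 R A (chi ψ)) :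
    (resT h ψ).map A (heckeOp hℓ ψ A x) = heckeOp hℓ (upChar h ψ) A ((resT h ψ).map A x) := by
  rw [heckeOp, heckeOp, ← Sys.map_comp, ← Sys.map_comp]
  refine LinearMap.congr_fun (Sys.map_eq_of_tri (L := L) (ψ := ψ) (chi_self ψ) _ _ ?_
    ((isTri_heckeSys dvd_rfl (self_apply ψ) hℓ).comp (isTri_resT h ψ))
    ((isTri_resT h ψ).comp (isTri_heckeSys h.dvd (up_apply h ψ) hℓ)) ?_ ?_) x
  · intro δ p p' e
    refine Prod.ext (inj_heckeSys (R := R) hℓ ψ δ p.1 p'.1 ?_) rfl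
    simpa [Matrix.mul_assoc] using e
  · simp only [Fintype.card_prod, Fintype.card_unit, one_mul, mul_one, card_idx hℓ hne h]
  · rintro ⟨⟨o, ho⟩, _⟩
    refine ⟨1, ((), ⟨o, (idx_iff hℓ hne h o).mpr ho⟩), ?_⟩
    simp only [Sys.comp_β, heckeSys_β, resT_β, HeckeH.matOf_one, Matrix.one_mul, Matrix.mul_one]
    rfl

theorem deg_hecke {ℓ : ℕ} (hℓ : ℓ.Prime) (hne : ℓ ≠ q) (x : H1 R A (chi ψ)) :
    (degT h ψ).map A (heckeOp hℓ ψ A x) = heckeOp hℓ (upChar h ψ) A ((degT h ψ).map A x) := by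
  rw [heckeOp, heckeOp, ← Sys.map_comp, ← Sys.map_comp]
  refine LinearMap.congr_fun (Sys.map_eq_of_tri (L := L) (ψ := ψ) (chi_self ψ) _ _ ?_
    ((isTri_heckeSys dvd_rfl (self_apply ψ) hℓ).comp (isTri_degT h ψ))
    ((isTri_degT h ψ).comp (isTri_heckeSys h.dvd (up_apply h ψ) hℓ)) ?_ ?_) x
  · intro δ p p' e
    refine Prod.ext (inj_heckeSys (R := R) hℓ ψ δ p.1 p'.1 ?_) rfl
    refine HeckeH.mul_right_cancel_of_det_ne (c := dMat q)
      (by rw [det_dMat]; exact_mod_cast h.prime.ne_zero) ?_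
    simpa [Matrix.mul_assoc] using e
  · simp only [Fintype.card_prod, Fintype.card_unit, one_mul, mul_one, card_idx hℓ hne h]
  · rintro ⟨⟨_ | i, ho⟩, _⟩
    · refine ⟨1, ((), ⟨none, (idx_iff hℓ hne h none).mpr ho⟩), ?_⟩
      simp [dMat, heckeBeta, mul_comm]
    · have : NeZero ℓ := ⟨hℓ.ne_zero⟩
      have hco : Nat.Coprime q ℓ := (Nat.coprime_primes h.prime hℓ).mpr hne.symm
      obtain ⟨j, hj, k, hk⟩ : ∃ j, j < ℓ ∧ ∃ k : ℤ, (q : ℤ) * (j : ℕ) + k * ℓ = (i : ℕ) := by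
        refine ⟨(((i : ℕ) : ZMod ℓ) * (ZMod.unitOfCoprime q hco)⁻¹.val).val, ZMod.val_lt _, ?_⟩
        obtain ⟨k, hk⟩ : (ℓ : ℤ) ∣ ((i : ℕ) : ℤ) -
            (q : ℤ) * (((i : ℕ) : ZMod ℓ) * (ZMod.unitOfCoprime q hco)⁻¹.val).val := by
          rw [← ZMod.intCast_zmod_eq_zero_iff_dvd]
          push_cast
          rw [ZMod.natCast_zmod_val, mul_left_comm, ← ZMod.coe_unitOfCoprime q hco,
            ← Units.val_mul, mul_inv_cancel, Units.val_one, mul_one, sub_self]
        exact ⟨k, by linear_combination -hk⟩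
      refine ⟨gammaT L k, ((), ⟨some ⟨j, hj⟩, fun e => by simp at e⟩), ?_⟩
      simp [dMat, heckeBeta, gammaT, hk]

/-- Lines modulo `q` are moved to the line at infinity by the representatives. -/
theorem exists_line (h : IsRaise L M q) (X : M2) :
    ∃ i, (q : ℤ) ∣ (X * matOf (corRep h.prime h.not_dvd i)⁻¹) 1 0 := by
  have : Fact q.Prime := ⟨h.prime⟩
  by_cases hc : (q : ℤ) ∣ X 1 0
  · exact ⟨none, by simpa [corRep] using hc⟩
  have hc' : ((X 1 0 : ℤ) : ZMod q) ≠ 0 := fun e =>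
    hc ((ZMod.intCast_zmod_eq_zero_iff_dvd _ _).mp e)
  refine ⟨some ⟨(((X 1 1 : ℤ) : ZMod q) / ((X 1 0 : ℤ) : ZMod q)).val, ZMod.val_lt _⟩, ?_⟩
  set j := (((X 1 1 : ℤ) : ZMod q) / ((X 1 0 : ℤ) : ZMod q)).val with hj
  have e : (corRep h.prime h.not_dvd (some ⟨j, ZMod.val_lt _⟩))⁻¹ = gammaT L (-(j : ℤ)) *
      mkGamma0 (q : ℤ) (Nat.gcdB q L) (-(L : ℤ)) (Nat.gcdA q L)
        (by linear_combination bezout h.prime h.not_dvd) (dvd_neg.mpr dvd_rfl) := by
    rw [inv_eq_iff_mul_eq_one]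
    refine HeckeH.matOf_injective ?_
    simp only [corRep, corBase, gammaT, matOf_mul, matOf_mkGamma0, HeckeH.matOf_one,
      Matrix.mul_fin_two, Matrix.one_fin_two]
    ext a b
    fin_cases a <;> fin_cases b <;> simp <;>
      first
        | linear_combination bezout h.prime h.not_dvd
        | linear_combination -bezout h.prime h.not_dvd
        | ring
  rw [e, ← ZMod.intCast_zmod_eq_zero_iff_dvd, matOf_mul, gammaT, matOf_mkGamma0, matOf_mkGamma0,
    Matrix.mul_fin_two, Matrix.mul_apply, Fin.sum_univ_two]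
  simp only [Matrix.cons_val', Matrix.cons_val_zero, Matrix.cons_val_one, Matrix.cons_val_fin_one,
    Matrix.of_apply]
  push_cast
  rw [hj, ZMod.natCast_zmod_val, ZMod.natCast_self]
  field_simp
  ring

theorem cor_hecke {ℓ : ℕ} (hℓ : ℓ.Prime) (hne : ℓ ≠ q) (x : H1 R A (chi (upChar h ψ))) :
    (corT h ψ).map A (heckeOp hℓ (upChar h ψ) A x) = heckeOp hℓ ψ A ((corT h ψ).map A x) := by
  rw [heckeOp, heckeOp, ← Sys.map_comp, ← Sys.map_comp]
  refine (LinearMap.congr_fun (Sys.map_eq_of_tri (L := L) (ψ := ψ) (chi_upChar h ψ) _ _ ?_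
    ((isTri_corT h ψ).comp (isTri_heckeSys dvd_rfl (self_apply ψ) hℓ))
    ((isTri_heckeSys h.dvd (up_apply h ψ) hℓ).comp (isTri_corT h ψ)) ?_ ?_) x).symm
  · rintro δ ⟨i, k⟩ ⟨i', k'⟩ e
    simp only [Sys.comp_β, corT_β, heckeSys_β] at e
    set γ : Gamma0 L := Subgroup.inclusion (Period.gamma0_le_gamma0_of_dvd h.dvd) δ with hγ
    have hk : heckeBeta k = matOf ((corRep h.prime h.not_dvd i)⁻¹ * γ *
        corRep h.prime h.not_dvd i') * heckeBeta k' := by
      rw [matOf_mul, matOf_mul, Matrix.mul_assoc, Matrix.mul_assoc,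
        show matOf γ = matOf δ from rfl, ← e, ← Matrix.mul_assoc, ← matOf_mul,
        inv_mul_cancel, HeckeH.matOf_one, Matrix.one_mul]
    obtain rfl := inj_heckeSys (R := R) hℓ ψ _ k k' hk
    refine Prod.ext (cor_inj h δ i i' ?_) rfl
    refine HeckeH.mul_right_cancel_of_det_ne (c := heckeBeta k)
      (by rw [HeckeH.det_heckeBeta]; exact_mod_cast hℓ.ne_zero) ?_
    rw [e, Matrix.mul_assoc]
  · simp only [Fintype.card_prod, mul_comm, card_idx hℓ hne h]
  · rintro ⟨i, k⟩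
    set X : M2 := matOf (corRep h.prime h.not_dvd i) * heckeBeta k with hX
    obtain ⟨i', hi'⟩ := exists_line h X
    set Y : M2 := X * matOf (corRep h.prime h.not_dvd i')⁻¹ with hY
    have hdet : Y.det = ℓ := by
      rw [hY, hX, Matrix.det_mul, Matrix.det_mul, HeckeH.det_matOf, HeckeH.det_matOf,
        HeckeH.det_heckeBeta, one_mul, mul_one]
    have hL10 : (L : ℤ) ∣ Y 1 0 := by
      rw [← ZMod.intCast_zmod_eq_zero_iff_dvd]
      simp only [hY, hX, Matrix.mul_apply, Fin.sum_univ_two]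
      push_cast
      rw [tri_entry10 dvd_rfl (corRep h.prime h.not_dvd i),
        tri_entry10 dvd_rfl (corRep h.prime h.not_dvd i')⁻¹, heckeBeta_10, Int.cast_zero]
      ring
    have hM10 : (M : ℤ) ∣ Y 1 0 := by
      rw [← h.eq]; push_cast
      exact h.coprime.symm.mul_dvd hL10 hi'
    have hcoL : IsCoprime (Y 0 0) (L : ℤ) := by
      obtain ⟨c, hc⟩ := matOf_dvd (corRep h.prime h.not_dvd i')⁻¹
      obtain ⟨k0, hk0⟩ : (L : ℤ) ∣ Y 0 0 - matOf (corRep h.prime h.not_dvd i) 0 0 *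
          heckeBeta k 0 0 * matOf (corRep h.prime h.not_dvd i')⁻¹ 0 0 := by
        rw [← ZMod.intCast_zmod_eq_zero_iff_dvd]
        simp only [hY, hX, Matrix.mul_apply, Fin.sum_univ_two, heckeBeta_10]
        push_cast
        rw [tri_entry10 dvd_rfl (corRep h.prime h.not_dvd i')⁻¹]
        ring
      have hcβ : IsCoprime (heckeBeta k 0 0) (L : ℤ) := by
        obtain ⟨_ | j, hk⟩ := k
        · rw [heckeBeta_none]
          simpa using Nat.isCoprime_iff_coprime.mpr
            ((Nat.Prime.coprime_iff_not_dvd hℓ).mpr (hk rfl))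
        · simpa [heckeBeta_some] using isCoprime_one_left
      rw [show Y 0 0 = matOf (corRep h.prime h.not_dvd i) 0 0 *
        heckeBeta k 0 0 * matOf (corRep h.prime h.not_dvd i')⁻¹ 0 0 + (L : ℤ) * k0 by
          linear_combination hk0]
      exact (((HeckeH.isCoprime_matOf _).mul_left hcβ).mul_left
        (HeckeH.isCoprime_matOf _)).add_mul_left_left k0
    have hcoq : IsCoprime (Y 0 0) (q : ℤ) := by
      have hql : IsCoprime (ℓ : ℤ) (q : ℤ) := Nat.isCoprime_iff_coprime.mpr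
        ((Nat.coprime_primes hℓ h.prime).mpr hne)
      obtain ⟨c, hc⟩ := hi'
      rw [Matrix.det_fin_two] at hdet
      refine IsCoprime.of_mul_left_left (y := Y 1 1) ?_
      rw [show Y 0 0 * Y 1 1 = (ℓ : ℤ) + (q : ℤ) * (Y 0 1 * c) by
        linear_combination hdet + Y 0 1 * hc]
      exact hql.add_mul_left_left _
    obtain ⟨δ, j, hj⟩ := exists_heckeBeta (N := M) hℓ Y hdet hM10 (by
      rw [← h.eq]; push_cast; exact hcoL.mul_right hcoq)
    refine ⟨δ, (j, i'), ?_⟩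
    simp only [Sys.comp_β, corT_β, heckeSys_β]
    rw [← Matrix.mul_assoc, ← hj, hY, Matrix.mul_assoc, ← matOf_mul, inv_mul_cancel,
      HeckeH.matOf_one, Matrix.mul_one]

theorem w_hecke {ℓ : ℕ} (hℓ : ℓ.Prime) (hne : ℓ ≠ q) (x : H1 R A (chi (upChar h ψ))) :
    (wT h ψ).map A (heckeOp hℓ (upChar h ψ) A x) =
      heckeOp hℓ (upChar h ψ) A ((wT h ψ).map A x) := by
  rw [heckeOp, ← Sys.map_comp, ← Sys.map_comp]
  refine LinearMap.congr_fun (Sys.map_eq_of_tri (L := L) (ψ := ψ) (chi_upChar h ψ) _ _ ?_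
    ((isTri_heckeSys h.dvd (up_apply h ψ) hℓ).comp (isTri_wT h ψ))
    ((isTri_wT h ψ).comp (isTri_heckeSys h.dvd (up_apply h ψ) hℓ)) ?_ ?_) x
  · intro δ p p' e
    refine Prod.ext (inj_heckeSys (R := R) hℓ (upChar h ψ) δ p.1 p'.1 ?_) rfl
    refine HeckeH.mul_right_cancel_of_det_ne (c := wMatV L q)
      (by rw [det_wMatV h.prime h.not_dvd]; exact_mod_cast h.prime.ne_zero) ?_
    simpa [Matrix.mul_assoc] using e
  · simp only [Fintype.card_prod, Fintype.card_unit, one_mul, mul_one]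
  · rintro ⟨j, _⟩
    set a := Nat.gcdA q L
    set b := Nat.gcdB q L
    have hb : a * (q : ℤ) + b * (L : ℤ) = 1 := bezout h.prime h.not_dvd
    set x₀ := heckeBeta j 0 0
    set y₀ := heckeBeta j 0 1
    set d₀ := heckeBeta j 1 1
    have hβ : heckeBeta j = !![x₀, y₀; 0, d₀] := by
      rw [← heckeBeta_10 j]; exact Matrix.eta_fin_two _
    have hdet0 : x₀ * d₀ = ℓ := by
      have := HeckeH.det_heckeBeta j
      rwa [hβ, Matrix.det_fin_two_of, mul_zero, sub_zero] at this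
    -- `Z = adj(W) β W / q`
    set Z : M2 := !![(q : ℤ) * a * x₀ + L * (q * y₀ + b * d₀), -b * x₀ + q * y₀ + b * d₀;
      ((L * q : ℕ) : ℤ) * (-(a * x₀) - L * y₀ + a * d₀),
      L * b * x₀ + q * (-(L * y₀) + a * d₀)] with hZ
    have hWZ : heckeBeta j * wMatV L q = wMatV L q * Z := by
      rw [hβ, hZ, wMatV]
      ext s t
      fin_cases s <;> fin_cases t <;> simp [Matrix.mul_apply, Fin.sum_univ_two]
      all_goals first
        | linear_combination (-((q : ℤ) * a * x₀ + q * L * y₀)) * hb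
        | linear_combination (b * x₀ - q * y₀) * hb
        | linear_combination (-((L : ℤ) * q * d₀)) * hb
        | linear_combination (-((q : ℤ) * d₀)) * hb
    have hdet : Z.det = ℓ := by
      rw [hZ, Matrix.det_fin_two_of]
      push_cast
      linear_combination ((a * (q : ℤ) + b * L + 1) * x₀ * d₀) * hb + hdet0
    have hco : IsCoprime (Z 0 0) (M : ℤ) := by
      have hZ00 : Z 0 0 = (q : ℤ) * a * x₀ + L * (q * y₀ + b * d₀) := rfl
      have hxL : IsCoprime x₀ (L : ℤ) := by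
        obtain ⟨_ | i, hi⟩ := j
        · simpa [x₀, heckeBeta_none] using Nat.isCoprime_iff_coprime.mpr
            ((Nat.Prime.coprime_iff_not_dvd hℓ).mpr ((idx_iff hℓ hne h none).mp hi rfl))
        · simpa [x₀, heckeBeta_some] using isCoprime_one_left
      have hql : IsCoprime (ℓ : ℤ) (q : ℤ) := Nat.isCoprime_iff_coprime.mpr
        ((Nat.coprime_primes hℓ h.prime).mpr hne)
      rw [hZ00, ← h.eq]
      push_cast
      refine IsCoprime.mul_right ?_ ?_
      · rw [show (q : ℤ) * a * x₀ + L * (q * y₀ + b * d₀) =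
          x₀ + (L : ℤ) * (q * y₀ + b * d₀ - b * x₀) by linear_combination x₀ * hb]
        exact hxL.add_mul_left_left _
      · rw [show (q : ℤ) * a * x₀ + L * (q * y₀ + b * d₀) =
          d₀ + (q : ℤ) * (a * x₀ + L * y₀ - a * d₀) by linear_combination d₀ * hb]
        exact (IsCoprime.of_mul_left_right (hdet0 ▸ hql)).add_mul_left_left _
    obtain ⟨δ, j', hj'⟩ := exists_heckeBeta (N := M) hℓ Z hdet
      (by rw [← h.eq]; exact dvd_mul_right _ _) hco
    obtain ⟨δ', hδ'⟩ := exists_w h δ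
    refine ⟨δ', ((), j'), ?_⟩
    simp only [Sys.comp_β, wT_β, heckeSys_β]
    rw [hWZ, hj', ← Matrix.mul_assoc, hδ', Matrix.mul_assoc]

/-- Corestriction after the Atkin-Lehner operator. -/
def corWT : Sys R (Unit × Option (Fin q)) (chi (upChar h ψ)) (chi ψ) :=
  (wT h ψ).comp (corT h ψ)

theorem corW_hecke {ℓ : ℕ} (hℓ : ℓ.Prime) (hne : ℓ ≠ q) (x : H1 R A (chi (upChar h ψ))) :
    (corWT h ψ).map A (heckeOp hℓ (upChar h ψ) A x) = heckeOp hℓ ψ A ((corWT h ψ).map A x) := by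
  rw [corWT, Sys.map_comp, Sys.map_comp, w_hecke h ψ hℓ hne, cor_hecke h ψ hℓ hne]

/-! ### The composites -/

theorem cor_weight (i : Option (Fin q)) :
    (corT h ψ).w i * (chi ψ (corRep h.prime h.not_dvd i) : R) = 1 := by
  show (ψ (dUnit dvd_rfl (corRep h.prime h.not_dvd i))⁻¹ : R) * _ = 1
  rw [chi_self, ← Units.val_mul, ← map_mul, inv_mul_cancel, map_one, Units.val_one]

/-- `cor ∘ res = q + 1`. -/
theorem cor_res (x : H1 R A (chi ψ)) :
    (corT h ψ).map A ((resT h ψ).map A x) = ((q : R) + 1) • x := by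
  rw [← Sys.map_comp, Sys.map_eq_smul_of_scalar _ one_ne_zero
    (fun p => corRep h.prime h.not_dvd p.2) (fun p => by simp)]
  congr 1
  rw [Finset.sum_eq_card_nsmul (b := (1 : R))]
  · simp
  · rintro ⟨_, i⟩ -
    show (ψ 1 : R) * (corT h ψ).w i * _ = 1
    rw [map_one, Units.val_one, one_mul, cor_weight]

/-- `cor W ∘ [q] = ψ(q) (q + 1)`. -/
theorem corW_deg (x : H1 R A (chi ψ)) :
    (corWT h ψ).map A ((degT h ψ).map A x) =
      ((ψ (primeUnit L h.prime) : R) * ((q : R) + 1)) • x := by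
  set e : Gamma0 L := mkGamma0 ((q : ℤ) * Nat.gcdA q L) (-Nat.gcdB q L) (L : ℤ) 1
    (by linear_combination bezout h.prime h.not_dvd) dvd_rfl with he
  rw [← Sys.map_comp, Sys.map_eq_smul_of_scalar _ (a := (q : ℤ))
    (by exact_mod_cast h.prime.ne_zero)
    (fun p => e * corRep h.prime h.not_dvd p.2.2) (fun p => by
      show dMat q * (wMatV L q * matOf (corRep h.prime h.not_dvd p.2.2)) = _
      rw [matOf_mul, ← Matrix.smul_mul, ← Matrix.mul_assoc]
      congr 1
      rw [he, matOf_mkGamma0, dMat, wMatV]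
      ext s t
      fin_cases s <;> fin_cases t <;> simp [Matrix.mul_apply, Fin.sum_univ_two] <;> ring)]
  congr 1
  rw [Finset.sum_eq_card_nsmul (b := (ψ (primeUnit L h.prime) : R))]
  · simp [nsmul_eq_mul]
    ring
  · rintro ⟨_, _, i⟩ -
    show (ψ (primeUnit L h.prime) : R) * ((ψ 1 : R) * (corT h ψ).w i) * _ = _
    have h1 : chi ψ e = 1 := by
      rw [chi_self, show dUnit dvd_rfl e = 1 from Units.ext (by simp [coe_dUnit, he]), map_one]
    rw [map_mul, h1, one_mul, map_one, Units.val_one, one_mul, mul_assoc, cor_weight, mul_one]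

theorem card_heckeIdx_self (h : IsRaise L M q) :
    Fintype.card (heckeIdx L q) = Fintype.card (Option (Fin q)) :=
  Fintype.card_congr (Equiv.subtypeUnivEquiv fun _ _ => h.not_dvd)

/-- `cor ∘ [q] = T_q`. -/
theorem cor_deg (x : H1 R A (chi ψ)) :
    (corT h ψ).map A ((degT h ψ).map A x) = heckeOp h.prime ψ A x := by
  rw [heckeOp, ← Sys.map_comp]
  refine LinearMap.congr_fun (Sys.map_eq_of_tri (L := L) (ψ := ψ) (chi_self ψ) _ _ ?_
    ((isTri_degT h ψ).comp (isTri_corT h ψ)) (isTri_heckeSys dvd_rfl (self_apply ψ) h.prime) ?_ ?_) x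
  · rintro δ ⟨_, i⟩ ⟨_, i'⟩ e
    simp only [Sys.comp_β, degT_β, corT_β] at e
    refine Prod.ext rfl ?_
    set g := corRep h.prime h.not_dvd i * (corRep h.prime h.not_dvd i')⁻¹ with hg
    have h1 : dMat q * matOf g = matOf δ * dMat q := by
      rw [hg, matOf_mul, ← Matrix.mul_assoc, e, Matrix.mul_assoc (matOf δ),
        Matrix.mul_assoc (dMat q), ← matOf_mul, mul_inv_cancel, HeckeH.matOf_one, Matrix.mul_one]
    refine corRep_inj h.prime h.not_dvd
      ((mem_lower_iff h.prime h.not_dvd g).mpr ⟨matOf δ 1 0, ?_⟩)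
    have h2 := congrFun (congrFun h1 1) 0
    simp [dMat, Matrix.mul_apply, Fin.sum_univ_two] at h2
    rw [h2, mul_comm]
  · simp [card_heckeIdx_self h]
  · rintro ⟨_, i⟩
    refine exists_heckeBeta h.prime _ (by
      simp [Matrix.det_mul, det_dMat, HeckeH.det_matOf]) ?_ ?_
    · simpa [Matrix.mul_apply, Fin.sum_univ_two, dMat] using matOf_dvd (corRep h.prime h.not_dvd i)
    · simpa [Matrix.mul_apply, Fin.sum_univ_two, dMat] using
        h.coprime.mul_left (HeckeH.isCoprime_matOf _)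

/-- `cor W ∘ res = T_q`. -/
theorem corW_res (x : H1 R A (chi ψ)) :
    (corWT h ψ).map A ((resT h ψ).map A x) = heckeOp h.prime ψ A x := by
  rw [heckeOp, ← Sys.map_comp]
  refine LinearMap.congr_fun (Sys.map_eq_of_tri (L := L) (ψ := ψ) (chi_self ψ) _ _ ?_
    ((isTri_resT h ψ).comp ((isTri_wT h ψ).comp (isTri_corT h ψ)))
    (isTri_heckeSys dvd_rfl (self_apply ψ) h.prime) ?_ ?_) x
  · rintro δ ⟨_, _, i⟩ ⟨_, _, i'⟩ e
    simp only [Sys.comp_β, resT_β, wT_β, corT_β, Matrix.one_mul] at e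
    refine Prod.ext rfl (Prod.ext rfl ?_)
    set g := corRep h.prime h.not_dvd i * (corRep h.prime h.not_dvd i')⁻¹ with hg
    have h1 : wMatV L q * matOf g = matOf δ * wMatV L q := by
      rw [hg, matOf_mul, ← Matrix.mul_assoc, e, Matrix.mul_assoc (matOf δ),
        Matrix.mul_assoc (wMatV L q), ← matOf_mul, mul_inv_cancel, HeckeH.matOf_one, Matrix.mul_one]
    refine corRep_inj h.prime h.not_dvd ((mem_lower_iff h.prime h.not_dvd g).mpr ?_)
    have h2 := congrFun (congrFun h1 0) 0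
    simp [wMatV, Matrix.mul_apply, Fin.sum_univ_two] at h2
    have hqb : IsCoprime (q : ℤ) (Nat.gcdB q L) :=
      ⟨Nat.gcdA q L, (L : ℤ), by linear_combination bezout h.prime h.not_dvd⟩
    exact hqb.dvd_of_dvd_mul_left ⟨Nat.gcdA q L * matOf g 0 0 - matOf δ 0 0 * Nat.gcdA q L -
      matOf δ 0 1 * L, by linear_combination -h2⟩
  · simp [card_heckeIdx_self h]
  · rintro ⟨_, _, i⟩
    obtain ⟨c, hc⟩ := matOf_dvd (corRep h.prime h.not_dvd i)
    set g := matOf (corRep h.prime h.not_dvd i)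
    have e00 : (wMatV L q * g) 0 0 =
        g 0 0 + (L : ℤ) * (-(Nat.gcdB q L) * g 0 0 - Nat.gcdB q L * c) := by
      simp only [Matrix.mul_apply, Fin.sum_univ_two, wMatV, Matrix.cons_val', Matrix.cons_val_zero,
        Matrix.cons_val_one, Matrix.cons_val_fin_one, Matrix.of_apply]
      linear_combination g 0 0 * bezout h.prime h.not_dvd - Nat.gcdB q L * hc
    have e10 : (wMatV L q * g) 1 0 = (L : ℤ) * ((q : ℤ) * g 0 0 + q * c) := by
      simp only [Matrix.mul_apply, Fin.sum_univ_two, wMatV, Matrix.cons_val', Matrix.cons_val_zero,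
        Matrix.cons_val_one, Matrix.cons_val_fin_one, Matrix.of_apply]
      linear_combination (q : ℤ) * hc
    refine exists_heckeBeta h.prime ((1 : M2) * (wMatV L q * g)) ?_ ?_ ?_
    · rw [Matrix.one_mul, Matrix.det_mul, det_wMatV h.prime h.not_dvd, HeckeH.det_matOf, mul_one]
    · rw [Matrix.one_mul, e10]; exact dvd_mul_right _ _
    · rw [Matrix.one_mul, e00]
      exact (HeckeH.isCoprime_matOf _).add_mul_left_left _

end FLTAgent.Lower.Lift.HopTW
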